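import Fermat.Agent.S16.Shimura.Defs

/-!
# S16 / Shimura: the Hecke correspondences on the group `Γ₀(N)`
`α_x γ = γ'_x α_{σ x}`.
-/

set_option autoImplicit false
set_option linter.unusedSectionVars false

open UpperHalfPlane ModularForm CongruenceSubgroup Filter Topology Matrix.SpecialLinearGroup
open scoped MatrixGroups ModularForm Manifold

namespace Fermat.Agent.S16.Shimura

open Fermat.Agent.S21 ModularCurve ModularCurve.Period
open P2MW.S_ModularForm_heckeT_slash_eq_self_of_mem_Gamma0.ModularForm.HeckeSlashInvariance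

variable (N : ℕ)

theorem dvd_of_mem_Gamma0 (γ : Gamma0 N) : (N : ℤ) ∣ (γ : SL(2, ℤ)) 1 0 :=
  (ZMod.intCast_zmod_eq_zero_iff_dvd _ _).mp (Gamma0_mem.mp γ.2)

section T

variable (ℓ : ℕ) [Fact ℓ.Prime] (hℓN : ¬ ℓ ∣ N)
include hℓN

theorem exists_corrT (γ : Gamma0 N) (x : OnePoint (ZMod ℓ)) :
    ∃ γ' : Gamma0 N, heckeRep ℓ x * mapGL ℝ (γ : SL(2, ℤ))
      = mapGL ℝ (γ' : SL(2, ℤ)) * heckeRep ℓ (redMatrix ℓ (γ : SL(2, ℤ)) • x) := by
  obtain ⟨g', hg', h⟩ := heckeRep_mul hℓN (γ : SL(2, ℤ)) (dvd_of_mem_Gamma0 N γ) x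
  exact ⟨⟨g', Gamma0_mem.mpr ((ZMod.intCast_zmod_eq_zero_iff_dvd _ _).mpr hg')⟩, h⟩

/-- the element `γ'_x ∈ Γ₀(N)` with `α_x γ = γ'_x α_{σ x}` (case `ℓ ∤ N`). -/
noncomputable def corrT (γ : Gamma0 N) (x : OnePoint (ZMod ℓ)) : Gamma0 N :=
  (exists_corrT N ℓ hℓN γ x).choose

theorem corrT_spec (γ : Gamma0 N) (x : OnePoint (ZMod ℓ)) :
    heckeRep ℓ x * mapGL ℝ (γ : SL(2, ℤ))
      = mapGL ℝ (corrT N ℓ hℓN γ x : SL(2, ℤ)) * heckeRep ℓ (redMatrix ℓ (γ : SL(2, ℤ)) • x) :=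
  (exists_corrT N ℓ hℓN γ x).choose_spec

/-- The Hecke operator `T_ℓ` on functions on `Γ₀(N)`. -/
noncomputable def opT : NatOp (Gamma0 N) where
  op A _ :=
    { toFun := fun φ γ => ∑ x : OnePoint (ZMod ℓ), φ (corrT N ℓ hℓN γ x)
      map_zero' := by funext γ; simp
      map_add' := fun φ φ' => by funext γ; simp [Finset.sum_add_distrib] }
  nat A B _ _ g φ := by
    funext γ
    simp [map_sum]

theorem opT_apply {A : Type} [AddCommGroup A] (φ : Gamma0 N → A) (γ : Gamma0 N) :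
    (opT N ℓ hℓN).op A φ γ = ∑ x : OnePoint (ZMod ℓ), φ (corrT N ℓ hℓN γ x) := rfl

end T

section U

variable (q : ℕ) [NeZero q] (hqN : q ∣ N)
include hqN

theorem dvd_of_mem_Gamma0' (γ : Gamma0 N) : (q : ℤ) ∣ (γ : SL(2, ℤ)) 1 0 :=
  (Int.natCast_dvd_natCast.mpr hqN).trans (dvd_of_mem_Gamma0 N γ)

theorem cast_eq_zero_of_mem_Gamma0' (γ : Gamma0 N) : (((γ : SL(2, ℤ)) 1 0 : ℤ) : ZMod q) = 0 :=
  (ZMod.intCast_zmod_eq_zero_iff_dvd _ _).mpr (dvd_of_mem_Gamma0' N q hqN γ)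

theorem exists_corrU (γ : Gamma0 N) (x : ZMod q) :
    ∃ γ' : Gamma0 N, heckeMatrix q x.val * mapGL ℝ (γ : SL(2, ℤ))
      = mapGL ℝ (γ' : SL(2, ℤ)) *
        heckeMatrix q (affinePerm (γ : SL(2, ℤ)) (cast_eq_zero_of_mem_Gamma0' N q hqN γ) x).val := by
  obtain ⟨g', hg', h⟩ := heckeMatrix_mul_of_dvd (γ : SL(2, ℤ)) (dvd_of_mem_Gamma0' N q hqN γ) x
  refine ⟨⟨g', ?_⟩, h⟩
  rw [Gamma0_mem, hg']
  push_cast
  rw [Gamma0_mem.mp γ.2, mul_zero]

/-- the element `γ'_x ∈ Γ₀(N)` with `α_x γ = γ'_x α_{σ x}` (case `q ∣ N`). -/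
noncomputable def corrU (γ : Gamma0 N) (x : ZMod q) : Gamma0 N :=
  (exists_corrU N q hqN γ x).choose

theorem corrU_spec (γ : Gamma0 N) (x : ZMod q) :
    heckeMatrix q x.val * mapGL ℝ (γ : SL(2, ℤ))
      = mapGL ℝ (corrU N q hqN γ x : SL(2, ℤ)) *
        heckeMatrix q (affinePerm (γ : SL(2, ℤ)) (cast_eq_zero_of_mem_Gamma0' N q hqN γ) x).val :=
  (exists_corrU N q hqN γ x).choose_spec

/-- The Hecke operator `U_q` on functions on `Γ₀(N)`. -/
noncomputable def opU : NatOp (Gamma0 N) where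
  op A _ :=
    { toFun := fun φ γ => ∑ x : ZMod q, φ (corrU N q hqN γ x)
      map_zero' := by funext γ; simp
      map_add' := fun φ φ' => by funext γ; simp [Finset.sum_add_distrib] }
  nat A B _ _ g φ := by
    funext γ
    simp [map_sum]

theorem opU_apply {A : Type} [AddCommGroup A] (φ : Gamma0 N → A) (γ : Gamma0 N) :
    (opU N q hqN).op A φ γ = ∑ x : ZMod q, φ (corrU N q hqN γ x) := rfl

end U

/-! ### algebra of natural operators -/

namespace NatOp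

variable {G : Type}

/-- sum of natural operators -/
def add (S T : NatOp G) : NatOp G where
  op A _ := S.op A + T.op A
  nat A B _ _ g φ := by
    funext γ
    simp [S.nat A B g φ, T.nat A B g φ]

/-- composition of natural operators -/
def comp (S T : NatOp G) : NatOp G where
  op A _ := (S.op A).comp (T.op A)
  nat A B _ _ g φ := by
    simp [S.nat A B g, T.nat A B g φ]

/-- multiplication by an integer -/
def const (G : Type) (a : ℤ) : NatOp G where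
  op A _ := a • AddMonoidHom.id (G → A)
  nat A B _ _ g φ := by
    funext γ
    simp

end NatOp

end Fermat.Agent.S16.Shimura
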