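import Fermat.Agent.S16.Shimura.Defs

/-!
# S16 / Shimura, module M4: counting homomorphisms `Γ → ℤ/n` killing torsion and `T`
-/

set_option autoImplicit false
set_option linter.unusedSectionVars false

open UpperHalfPlane ModularForm CongruenceSubgroup Filter Topology Matrix.SpecialLinearGroup
open scoped MatrixGroups ModularForm Manifold

namespace Fermat.Agent.S16.Shimura

open Fermat.Agent.S21 ModularCurve ModularCurve.Period

namespace CountModN

/-! ### orbit sums -/

section OrbitSum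

variable {X : Type} [Fintype X] [DecidableEq X] (O : X → Finset X)

/-- the set of "orbits" -/
def OQ : Type := {q : Finset X // ∃ x, O x = q}

noncomputable instance : Fintype (OQ O) :=
  haveI : Finite (OQ O) := inferInstanceAs (Finite {q : Finset X // ∃ x, O x = q})
  Fintype.ofFinite _

/-- summation over the orbits -/
def sumMap (K : Type) [CommRing K] : (X → K) →ₗ[K] (OQ O → K) where
  toFun v q := ∑ y ∈ q.1, v y
  map_add' v w := by funext q; simp [Finset.sum_add_distrib]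
  map_smul' c v := by funext q; simp [Finset.mul_sum]

theorem sumMap_apply {K : Type} [CommRing K] (v : X → K) (q : OQ O) :
    sumMap O K v q = ∑ y ∈ q.1, v y := rfl

theorem mem_ker_sumMap {K : Type} [CommRing K] (v : X → K) :
    v ∈ LinearMap.ker (sumMap O K) ↔ ∀ x, ∑ y ∈ O x, v y = 0 := by
  rw [LinearMap.mem_ker]
  constructor
  · intro h x
    exact congrFun h ⟨O x, x, rfl⟩
  · intro h
    funext ⟨q, x, hx⟩
    subst hx
    exact h x

variable (hself : ∀ x, x ∈ O x) (hO : ∀ x y, y ∈ O x → O y = O x)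
include hself hO

theorem sumMap_surjective (K : Type) [CommRing K] : Function.Surjective (sumMap O K) := by
  intro w
  choose r hr using fun q : OQ O => q.2
  refine ⟨fun x => if x = r ⟨O x, x, rfl⟩ then w ⟨O x, x, rfl⟩ else 0, ?_⟩
  funext q
  rw [sumMap_apply, Finset.sum_eq_single (r q)]
  · have : (⟨O (r q), r q, rfl⟩ : OQ O) = q := Subtype.ext (hr q)
    rw [this, if_pos rfl]
  · intro y hy hne
    have : (⟨O y, y, rfl⟩ : OQ O) = q := Subtype.ext (by
      rw [← hr q] at hy ⊢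
      exact hO _ _ hy)
    rw [this, if_neg hne]
  · intro h
    exact absurd (by rw [← hr q]; exact hself _) h

theorem finrank_ker_add :
    Module.finrank ℂ (LinearMap.ker (sumMap O ℂ)) + Fintype.card (OQ O) = Fintype.card X := by
  have h := LinearMap.finrank_range_add_finrank_ker (sumMap O ℂ)
  rw [LinearMap.range_eq_top.mpr (sumMap_surjective O hself hO ℂ), finrank_top,
    Module.finrank_fintype_fun_eq_card, Module.finrank_fintype_fun_eq_card] at h
  omega

theorem card_ker_mul (n : ℕ) [NeZero n] :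
    Nat.card (LinearMap.ker (sumMap O (ZMod n))) * n ^ Fintype.card (OQ O)
      = n ^ Fintype.card X := by
  have h := Submodule.card_eq_card_quotient_mul_card (LinearMap.ker (sumMap O (ZMod n)))
  have e := (sumMap O (ZMod n)).quotKerEquivOfSurjective (sumMap_surjective O hself hO (ZMod n))
  rw [Nat.card_congr e.toEquiv, Nat.card_fun, Nat.card_fun, Nat.card_zmod,
    Nat.card_eq_fintype_card (α := X), Nat.card_eq_fintype_card (α := OQ O)] at h
  exact h.symm

theorem card_ker_eq (n : ℕ) [NeZero n] :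
    Nat.card (LinearMap.ker (sumMap O (ZMod n)))
      = n ^ Module.finrank ℂ (LinearMap.ker (sumMap O ℂ)) := by
  have h1 := card_ker_mul O hself hO n
  have h2 := finrank_ker_add O hself hO
  rw [← h2, pow_add] at h1
  exact Nat.eq_of_mul_eq_mul_right (pow_pos (Nat.pos_of_ne_zero (NeZero.ne n)) _) h1

end OrbitSum

/-! ### the cocycle with coefficients in a commutative ring -/

section Cocycle

open GroupBound

variable (Γ : Subgroup SL(2, ℤ)) {K : Type} [CommRing K]

/-- the modified cocycle `c_φ(g)(x) + v(gx) - v(x)`. -/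
noncomputable def ccK (φ : Additive Γ →+ K) (v : X Γ → K) (g : SL(2, ℤ)) (x : X Γ) : K :=
  φ (Additive.ofMul (kap Γ g x)) + v (g • x) - v x

theorem ccK_mul (φ : Additive Γ →+ K) (v : X Γ → K) (g h : SL(2, ℤ)) (x : X Γ) :
    ccK Γ φ v (g * h) x = ccK Γ φ v g (h • x) + ccK Γ φ v h x := by
  simp only [ccK, kap_mul, ofMul_mul, map_add, mul_smul]
  ring

theorem ccK_one (φ : Additive Γ →+ K) (v : X Γ → K) (x : X Γ) : ccK Γ φ v 1 x = 0 := by
  have h := ccK_mul Γ φ v 1 1 x
  simp only [mul_one, one_smul] at h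
  linear_combination -h

theorem ccK_inv (φ : Additive Γ →+ K) (v : X Γ → K) (g : SL(2, ℤ)) (x : X Γ) :
    ccK Γ φ v g⁻¹ x = - ccK Γ φ v g (g⁻¹ • x) := by
  have h := ccK_mul Γ φ v g g⁻¹ x
  rw [mul_inv_cancel, ccK_one] at h
  linear_combination -h

theorem ccK_sub (φ φ' : Additive Γ →+ K) (v v' : X Γ → K) (g : SL(2, ℤ)) :
    ccK Γ (φ - φ') (v - v') g = ccK Γ φ v g - ccK Γ φ' v' g := by
  funext x
  simp only [ccK, AddMonoidHom.sub_apply, Pi.sub_apply]
  ring

/-- the subgroup on which the modified cocycle vanishes -/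
def vanishK (φ : Additive Γ →+ K) (v : X Γ → K) : Subgroup SL(2, ℤ) where
  carrier := {g | ∀ x, ccK Γ φ v g x = 0}
  one_mem' := fun x => ccK_one Γ φ v x
  mul_mem' := by
    intro g h hg hh x
    rw [ccK_mul, hg, hh, add_zero]
  inv_mem' := by
    intro g hg x
    rw [ccK_inv, hg, neg_zero]

theorem vanishK_eq_top (φ : Additive Γ →+ K) (v : X Γ → K)
    (hS : ccK Γ φ v ModularGroup.S = 0) (hU : ccK Γ φ v Umat = 0) : vanishK Γ φ v = ⊤ := by
  have hSm : ModularGroup.S ∈ vanishK Γ φ v := fun x => congrFun hS x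
  have hUm : Umat ∈ vanishK Γ φ v := fun x => congrFun hU x
  have hTm : ModularGroup.T ∈ vanishK Γ φ v := by
    have : ModularGroup.T = ModularGroup.S⁻¹ * Umat := by
      simp [Umat]
    rw [this]
    exact (vanishK Γ φ v).mul_mem ((vanishK Γ φ v).inv_mem hSm) hUm
  rw [eq_top_iff, ← SpecialLinearGroup.SL2Z_generators, Subgroup.closure_le]
  rintro g (rfl | rfl)
  · exact hSm
  · exact hTm

/-- the base point: the coset of `1`. -/
def x0 : X Γ := ((1 : SL(2, ℤ)) : X Γ)

theorem smul_x0 (γ : Γ) : (γ : SL(2, ℤ)) • x0 Γ = x0 Γ := by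
  change ((((γ : SL(2, ℤ)) * 1 : SL(2, ℤ))) : X Γ) = ((1 : SL(2, ℤ)) : X Γ)
  rw [eq_comm, QuotientGroup.eq]
  simp

theorem out_x0_mem : (Quotient.out (x0 Γ) : SL(2, ℤ)) ∈ Γ := by
  have h1 : ((Quotient.out (x0 Γ) : SL(2, ℤ)) : X Γ) = ((1 : SL(2, ℤ)) : X Γ) :=
    QuotientGroup.out_eq' _
  rw [eq_comm, QuotientGroup.eq] at h1
  simpa using h1

theorem phi_kap_x0 (φ : Additive Γ →+ K) (γ : Γ) :
    φ (Additive.ofMul (kap Γ (γ : SL(2, ℤ)) (x0 Γ))) = φ (Additive.ofMul γ) := by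
  have hk : kap Γ (γ : SL(2, ℤ)) (x0 Γ)
      = (⟨_, out_x0_mem Γ⟩ : Γ)⁻¹ * γ * ⟨_, out_x0_mem Γ⟩ := by
    apply Subtype.ext
    simp only [kap, smul_x0, Subgroup.coe_mul, Subgroup.coe_inv]
  rw [hk]
  simp only [ofMul_mul, ofMul_inv, map_add, map_neg]
  ring

theorem ker_auxK (φ : Additive Γ →+ K) (v : X Γ → K)
    (hS : ccK Γ φ v ModularGroup.S = 0) (hU : ccK Γ φ v Umat = 0) :
    φ = 0 ∧ ∀ x, v x = v (x0 Γ) := by
  have htop := vanishK_eq_top Γ φ v hS hU
  have hall : ∀ g x, ccK Γ φ v g x = 0 := fun g x => by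
    have : g ∈ vanishK Γ φ v := by rw [htop]; trivial
    exact this x
  have hφ : φ = 0 := by
    refine AddMonoidHom.ext fun γ' => ?_
    obtain ⟨γ, rfl⟩ := Additive.ofMul.surjective γ'
    have h := hall (γ : SL(2, ℤ)) (x0 Γ)
    simp only [ccK, smul_x0, phi_kap_x0] at h
    simp only [AddMonoidHom.zero_apply]
    linear_combination h
  refine ⟨hφ, fun x => ?_⟩
  induction x using QuotientGroup.induction_on with
  | H g =>
    have h := hall g (x0 Γ)
    have hg : g • (x0 Γ) = (g : X Γ) := by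
      change (((g * 1 : SL(2, ℤ))) : X Γ) = (g : X Γ)
      rw [mul_one]
    simp only [ccK, hφ, AddMonoidHom.zero_apply, hg] at h
    linear_combination h

theorem kap_pow_eq_one (g : SL(2, ℤ)) (x : X Γ) (h : g • x = x) (m : ℕ) (hg : g ^ m = 1) :
    kap Γ g x ^ m = 1 := by
  apply Subtype.ext
  have h1 : ((kap Γ g x : Γ) : SL(2, ℤ))
      = (Quotient.out x)⁻¹ * g * ((Quotient.out x)⁻¹)⁻¹ := by
    simp only [kap, h, inv_inv]
  rw [Subgroup.coe_pow, h1, conj_pow, hg]
  simp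

theorem neg_one_pow_twelve : (-1 : SL(2, ℤ)) ^ 12 = 1 := by
  rw [Even.neg_one_pow (by decide)]

theorem S_pow_twelve : ModularGroup.S ^ 12 = 1 := by
  have : ModularGroup.S ^ 12 = (ModularGroup.S * ModularGroup.S) ^ 6 := by
    rw [← pow_two, ← pow_mul]
  rw [this, S_mul_S, Even.neg_one_pow (by decide)]

theorem U_pow_twelve : Umat ^ 12 = 1 := by
  have : Umat ^ 12 = (Umat * (Umat * Umat)) ^ 4 := by
    rw [← pow_two, ← pow_succ', ← pow_mul]
  rw [this, U_cube, Even.neg_one_pow (by decide)]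

theorem ccK_fixed (φ : Additive Γ →+ K) (hφ : IsPhi φ) (v : X Γ → K) (g : SL(2, ℤ))
    (hg : g ^ 12 = 1) (x : X Γ) (h : g • x = x) : ccK Γ φ v g x = 0 := by
  simp only [ccK, h, hφ.1 _ (kap_pow_eq_one Γ g x h 12 hg)]
  ring

theorem ccK_neg_one (hneg : (-1 : SL(2, ℤ)) ∈ Γ) (φ : Additive Γ →+ K) (hφ : IsPhi φ)
    (v : X Γ → K) (x : X Γ) : ccK Γ φ v (-1) x = 0 :=
  ccK_fixed Γ φ hφ v (-1) neg_one_pow_twelve x (neg_one_smul' Γ hneg x)

theorem ccK_U_x0 (hT : ModularGroup.T ∈ Γ) (φ : Additive Γ →+ K) (hφ : IsPhi φ) (v : X Γ → K) :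
    ccK Γ φ v Umat (x0 Γ) = ccK Γ φ v ModularGroup.S (x0 Γ) := by
  have h1 : ModularGroup.T • x0 Γ = x0 Γ := smul_x0 Γ ⟨_, hT⟩
  have h2 : ccK Γ φ v ModularGroup.T (x0 Γ) = 0 := by
    have := phi_kap_x0 Γ φ ⟨_, hT⟩
    simp only [ccK, h1]
    rw [this, hφ.2 ⟨_, hT⟩ rfl]
    ring
  rw [Umat, ccK_mul, h1, h2, add_zero]

end Cocycle

/-! ### the orbits of `S` and `U` -/

section Orbits

open GroupBound

variable (Γ : Subgroup SL(2, ℤ))

noncomputable instance instDecEqX : DecidableEq (X Γ) := Classical.decEq _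

/-- the `S`-orbit of `x` -/
noncomputable def OS (x : X Γ) : Finset (X Γ) := {x, ModularGroup.S • x}

/-- the `U`-orbit of `x` -/
noncomputable def OU (x : X Γ) : Finset (X Γ) := {x, Umat • x, Umat • Umat • x}

theorem OS_self (x : X Γ) : x ∈ OS Γ x := by simp [OS]

theorem OU_self (x : X Γ) : x ∈ OU Γ x := by simp [OU]

variable (hneg : (-1 : SL(2, ℤ)) ∈ Γ)
include hneg

theorem S_S_smul (x : X Γ) : ModularGroup.S • ModularGroup.S • x = x := by
  rw [← mul_smul, S_mul_S, neg_one_smul' Γ hneg]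

theorem U_U_U_smul (x : X Γ) : Umat • Umat • Umat • x = x := by
  rw [← mul_smul, ← mul_smul, mul_assoc, U_cube, neg_one_smul' Γ hneg]

theorem OS_eq (x y : X Γ) (h : y ∈ OS Γ x) : OS Γ y = OS Γ x := by
  simp only [OS, Finset.mem_insert, Finset.mem_singleton] at h
  rcases h with rfl | rfl
  · rfl
  · simp only [OS, S_S_smul Γ hneg]
    exact Finset.pair_comm _ _

theorem OU_eq (x y : X Γ) (h : y ∈ OU Γ x) : OU Γ y = OU Γ x := by
  simp only [OU, Finset.mem_insert, Finset.mem_singleton] at h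
  rcases h with rfl | rfl | rfl
  · rfl
  · simp only [OU, U_U_U_smul Γ hneg]
    ext z
    simp only [Finset.mem_insert, Finset.mem_singleton]
    tauto
  · simp only [OU, U_U_U_smul Γ hneg]
    ext z
    simp only [Finset.mem_insert, Finset.mem_singleton]
    tauto

omit hneg in
theorem sum_OS {K : Type} [CommRing K] (a : X Γ → K) (x : X Γ) :
    ∑ y ∈ OS Γ x, a y = if ModularGroup.S • x = x then a x else a x + a (ModularGroup.S • x) := by
  split_ifs with h
  · simp [OS, h]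
  · rw [OS, Finset.sum_pair (Ne.symm h)]

theorem sum_OU {K : Type} [CommRing K] (b : X Γ → K) (x : X Γ) :
    ∑ y ∈ OU Γ x, b y = if Umat • x = x then b x
      else b x + b (Umat • x) + b (Umat • Umat • x) := by
  split_ifs with h
  · simp [OU, h]
  · have h1 : x ≠ Umat • x := Ne.symm h
    have h2 : x ≠ Umat • Umat • x := by
      intro h3
      apply h
      have := congrArg (fun z => Umat • z) h3
      simp only [U_U_U_smul Γ hneg] at this
      exact this
    have h3 : Umat • x ≠ Umat • Umat • x := by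
      intro h4
      exact h1 (smul_left_cancel _ h4)
    rw [OU, Finset.sum_insert (by simp [h1, h2]), Finset.sum_pair h3]
    ring

theorem Vminus_eq [Γ.FiniteIndex] : Vminus Γ = LinearMap.ker (sumMap (OS Γ) ℂ) := by
  ext a
  rw [mem_ker_sumMap]
  constructor
  · intro h x
    have hx : a (ModularGroup.S • x) + a x = 0 := h x
    rw [sum_OS]
    split_ifs with hfix
    · rw [hfix] at hx
      linear_combination (1 / 2 : ℂ) * hx
    · linear_combination hx
  · intro h x
    have hx := h x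
    rw [sum_OS] at hx
    split_ifs at hx with hfix
    · rw [hfix, hx, add_zero]
    · linear_combination hx

theorem Vzero_eq [Γ.FiniteIndex] : Vzero Γ = LinearMap.ker (sumMap (OU Γ) ℂ) := by
  ext b
  rw [mem_ker_sumMap]
  constructor
  · intro h x
    have hx : b x + b (Umat • x) + b (Umat • Umat • x) = 0 := h x
    rw [sum_OU Γ hneg]
    split_ifs with hfix
    · rw [hfix, hfix] at hx
      linear_combination (1 / 3 : ℂ) * hx
    · exact hx
  · intro h x
    have hx := h x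
    rw [sum_OU Γ hneg] at hx
    split_ifs at hx with hfix
    · rw [hfix, hfix, hx]
      simp
    · exact hx

theorem ccK_S_mem [Γ.FiniteIndex] {K : Type} [CommRing K] (φ : Additive Γ →+ K) (hφ : IsPhi φ)
    (v : X Γ → K) : ccK Γ φ v ModularGroup.S ∈ LinearMap.ker (sumMap (OS Γ) K) := by
  rw [mem_ker_sumMap]
  intro x
  rw [sum_OS]
  split_ifs with h
  · exact ccK_fixed Γ φ hφ v _ S_pow_twelve x h
  · rw [add_comm, ← ccK_mul, S_mul_S, ccK_neg_one Γ hneg φ hφ]

theorem ccK_U_mem [Γ.FiniteIndex] {K : Type} [CommRing K] (φ : Additive Γ →+ K) (hφ : IsPhi φ)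
    (v : X Γ → K) : ccK Γ φ v Umat ∈ LinearMap.ker (sumMap (OU Γ) K) := by
  rw [mem_ker_sumMap]
  intro x
  rw [sum_OU Γ hneg]
  split_ifs with h
  · exact ccK_fixed Γ φ hφ v _ U_pow_twelve x h
  · have h1 := ccK_neg_one Γ hneg φ hφ v x
    rw [← U_cube, ccK_mul, ccK_mul, mul_smul] at h1
    linear_combination h1

end Orbits

/-! ### the injective map -/

section Final

open GroupBound

variable (Γ : Subgroup SL(2, ℤ)) [Γ.FiniteIndex] (hneg : (-1 : SL(2, ℤ)) ∈ Γ)
  (hT : ModularGroup.T ∈ Γ) (hS : ModularGroup.S ∉ Γ) (K : Type) [CommRing K]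

theorem isPhi_zero : IsPhi (0 : Additive Γ →+ K) := ⟨fun _ _ => rfl, fun _ _ => rfl⟩

/-- minus the indicator function of the base point -/
noncomputable def wv : X Γ → K := fun x => if x = x0 Γ then -1 else 0

include hS in
theorem S_smul_x0_ne : ModularGroup.S • x0 Γ ≠ x0 Γ := by
  intro h
  change (((ModularGroup.S * 1 : SL(2, ℤ))) : X Γ) = ((1 : SL(2, ℤ)) : X Γ) at h
  rw [eq_comm, QuotientGroup.eq] at h
  simp only [inv_one, mul_one, one_mul] at h
  exact hS h

include hS in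
theorem ccK_w_x0 : ccK Γ (0 : Additive Γ →+ K) (wv Γ K) ModularGroup.S (x0 Γ) = 1 := by
  simp [ccK, wv, S_smul_x0_ne Γ hS]

/-- the injective map `Φ × K^X → Vm × Vz`. -/
noncomputable def bigMap (P : {φ : Additive Γ →+ K // IsPhi φ} × (X Γ → K)) :
    LinearMap.ker (sumMap (OS Γ) K) × LinearMap.ker (sumMap (OU Γ) K) :=
  (⟨ccK Γ P.1.1 P.2 ModularGroup.S
      + P.2 (x0 Γ) • ccK Γ (0 : Additive Γ →+ K) (wv Γ K) ModularGroup.S,
    Submodule.add_mem _ (ccK_S_mem Γ hneg _ P.1.2 _)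
      (Submodule.smul_mem _ _ (ccK_S_mem Γ hneg _ (isPhi_zero Γ K) _))⟩,
   ⟨ccK Γ P.1.1 P.2 Umat, ccK_U_mem Γ hneg _ P.1.2 _⟩)

include hT hS in
theorem bigMap_injective : Function.Injective (bigMap Γ hneg K) := by
  rintro ⟨⟨φ, hφ⟩, v⟩ ⟨⟨φ', hφ'⟩, v'⟩ h
  have h1 : ccK Γ φ v ModularGroup.S
      + v (x0 Γ) • ccK Γ (0 : Additive Γ →+ K) (wv Γ K) ModularGroup.S
      = ccK Γ φ' v' ModularGroup.S
      + v' (x0 Γ) • ccK Γ (0 : Additive Γ →+ K) (wv Γ K) ModularGroup.S :=
    congrArg (fun P : LinearMap.ker (sumMap (OS Γ) K) × LinearMap.ker (sumMap (OU Γ) K) =>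
      (P.1 : X Γ → K)) h
  have h2 : ccK Γ φ v Umat = ccK Γ φ' v' Umat :=
    congrArg (fun P : LinearMap.ker (sumMap (OS Γ) K) × LinearMap.ker (sumMap (OU Γ) K) =>
      (P.2 : X Γ → K)) h
  have h3 : v (x0 Γ) = v' (x0 Γ) := by
    have a := congrFun h1 (x0 Γ)
    have b := congrFun h2 (x0 Γ)
    simp only [Pi.add_apply, Pi.smul_apply, ccK_w_x0 Γ hS K, smul_eq_mul, mul_one] at a
    rw [ccK_U_x0 Γ hT φ hφ, ccK_U_x0 Γ hT φ' hφ'] at b
    linear_combination a - b
  have h4 : ccK Γ φ v ModularGroup.S = ccK Γ φ' v' ModularGroup.S := by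
    rw [h3] at h1
    exact add_right_cancel h1
  obtain ⟨h5, h6⟩ := ker_auxK Γ (φ - φ') (v - v') (by rw [ccK_sub, h4, sub_self])
    (by rw [ccK_sub, h2, sub_self])
  have e1 : φ = φ' := sub_eq_zero.mp h5
  have e2 : v = v' := by
    funext x
    have := h6 x
    simp only [Pi.sub_apply] at this
    linear_combination this + h3
  subst e1 e2
  rfl

end Final

end CountModN

open CountModN in
theorem card_isPhi_mul_le (Γ : Subgroup SL(2, ℤ)) [Γ.FiniteIndex] (hneg : (-1 : SL(2, ℤ)) ∈ Γ)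
    (hT : ModularGroup.T ∈ Γ) (hS : ModularGroup.S ∉ Γ) (n : ℕ) [NeZero n] :
    Finite {φ : Additive Γ →+ ZMod n // IsPhi φ} ∧
    Nat.card {φ : Additive Γ →+ ZMod n // IsPhi φ} * n ^ Nat.card (X Γ)
      ≤ n ^ (Module.finrank ℂ (Vminus Γ) + Module.finrank ℂ (Vzero Γ)) := by
  have hinj := bigMap_injective Γ hneg hT hS (ZMod n)
  have hfin1 : Finite (LinearMap.ker (sumMap (OS Γ) (ZMod n))) := inferInstance
  have hfin2 : Finite (LinearMap.ker (sumMap (OU Γ) (ZMod n))) := inferInstance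
  have hfinP : Finite ({φ : Additive Γ →+ ZMod n // IsPhi φ} × (X Γ → ZMod n)) :=
    Finite.of_injective _ hinj
  have hfin : Finite {φ : Additive Γ →+ ZMod n // IsPhi φ} :=
    Finite.of_injective (fun φ => ((φ, 0) : {φ : Additive Γ →+ ZMod n // IsPhi φ} × (X Γ → ZMod n)))
      (fun a b h => congrArg Prod.fst h)
  refine ⟨hfin, ?_⟩
  have h := Nat.card_le_card_of_injective _ hinj
  rw [Nat.card_prod, Nat.card_prod, Nat.card_fun, Nat.card_zmod,
    card_ker_eq (OS Γ) (OS_self Γ) (OS_eq Γ hneg) n,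
    card_ker_eq (OU Γ) (OU_self Γ) (OU_eq Γ hneg) n, ← Vminus_eq Γ hneg, ← Vzero_eq Γ hneg,
    ← pow_add] at h
  exact h

end Fermat.Agent.S16.Shimura
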