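import Mathlib

/-!
# S16 / Shimura, module M5a: a lifting lemma for finitely generated abelian groups
-/

set_option autoImplicit false

namespace Fermat.Agent.S16.Shimura

namespace LiftLemma

variable {r : ℕ} {F : Type} [AddCommGroup F]

/-- homomorphisms out of `ℤ^r × F`. -/
noncomputable def homEquiv (K : Type) [AddCommGroup K] :
    (((Fin r →₀ ℤ) × F) →+ K) ≃ (Fin r → K) × (F →+ K) where
  toFun φ := (fun i => φ (Finsupp.single i 1, 0), φ.comp (AddMonoidHom.inr _ _))
  invFun p := AddMonoidHom.coprod (Finsupp.liftAddHom (fun i => (zmultiplesAddHom K (p.1 i)))) p.2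
  left_inv φ := by
    have h1 : Finsupp.liftAddHom (fun i => (zmultiplesAddHom K (φ (Finsupp.single i 1, 0))))
        = φ.comp (AddMonoidHom.inl _ _) := by
      ext i
      simp
    show AddMonoidHom.coprod
      (Finsupp.liftAddHom (fun i => (zmultiplesAddHom K (φ (Finsupp.single i 1, 0)))))
      (φ.comp (AddMonoidHom.inr _ _)) = φ
    rw [h1, AddMonoidHom.coprod_unique]
  right_inv p := by
    ext i
    · simp
    · simp

theorem hom_finite_eq_zero [Finite F] (φ : F →+ ℂ) : φ = 0 := by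
  ext x
  have h1 : Nat.card F • x = 0 := by
    exact card_nsmul_eq_zero' 
  have h2 : Nat.card F • φ x = 0 := by rw [← map_nsmul, h1, map_zero]
  have h3 : Nat.card F ≠ 0 := Nat.card_pos.ne'
  simpa [h3] using h2

/-- the linear version for `ℂ`. -/
noncomputable def homLinearEquiv [Finite F] :
    (((Fin r →₀ ℤ) × F) →+ ℂ) ≃ₗ[ℂ] (Fin r → ℂ) where
  toFun φ := fun i => φ (Finsupp.single i 1, 0)
  map_add' φ ψ := by ext i; simp
  map_smul' c φ := by ext i; simp
  invFun v := (homEquiv ℂ).symm (v, 0)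
  left_inv φ := by
    have : (homEquiv ℂ) φ = (fun i => φ (Finsupp.single i 1, 0), 0) := by
      refine Prod.ext rfl (hom_finite_eq_zero _)
    show (homEquiv ℂ).symm (fun i => φ (Finsupp.single i 1, 0), 0) = φ
    rw [← this, Equiv.symm_apply_apply]
  right_inv v := by
    have := (homEquiv (r := r) (F := F) ℂ).apply_symm_apply (v, 0)
    exact congrArg Prod.fst this

theorem main [Finite F] (n : ℕ) [NeZero n]
    (h : Nat.card (((Fin r →₀ ℤ) × F) →+ ZMod n)
      ≤ n ^ Module.finrank ℂ (((Fin r →₀ ℤ) × F) →+ ℂ))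
    (χ : ((Fin r →₀ ℤ) × F) →+ ZMod n) :
    ∃ χ' : ((Fin r →₀ ℤ) × F) →+ ℤ, ∀ x, χ x = ((χ' x : ℤ) : ZMod n) := by
  have hr : Module.finrank ℂ (((Fin r →₀ ℤ) × F) →+ ℂ) = r := by
    rw [LinearEquiv.finrank_eq (homLinearEquiv (r := r) (F := F))]
    simp
  rw [hr, Nat.card_congr (homEquiv (ZMod n)), Nat.card_prod, Nat.card_fun] at h
  simp only [Nat.card_eq_fintype_card, ZMod.card, Fintype.card_fin] at h
  have hfin : Finite (F →+ ZMod n) :=
    Finite.of_injective (fun φ => (φ : F → ZMod n)) DFunLike.coe_injective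
  have hpos : 0 < n ^ r := pow_pos (NeZero.pos n) r
  have h1 : Nat.card (F →+ ZMod n) ≤ 1 := by
    by_contra hc
    push Not at hc
    have : n ^ r * 2 ≤ n ^ r * Nat.card (F →+ ZMod n) := Nat.mul_le_mul_left _ hc
    omega
  have hsub : Subsingleton (F →+ ZMod n) := (Finite.card_le_one_iff_subsingleton).1 h1
  choose v hv using fun i : Fin r => ZMod.intCast_surjective (χ (Finsupp.single i 1, 0))
  refine ⟨(homEquiv ℤ).symm (v, 0), fun x => ?_⟩
  have key : χ = (Int.castAddHom (ZMod n)).comp ((homEquiv ℤ).symm (v, 0)) := by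
    apply (homEquiv (ZMod n)).injective
    refine Prod.ext ?_ (Subsingleton.elim _ _)
    funext i
    simp [homEquiv, hv]
  exact DFunLike.congr_fun key x

end LiftLemma

/-- If a f.g. abelian group `H` has at most `n ^ rank H` homomorphisms to `ℤ/n`, they all lift
to `ℤ`. -/
theorem exists_lift_of_card_le (H : Type) [AddCommGroup H] [AddGroup.FG H] (n : ℕ) [NeZero n]
    (h : Nat.card (H →+ ZMod n) ≤ n ^ Module.finrank ℂ (H →+ ℂ)) (χ : H →+ ZMod n) :
    ∃ χ' : H →+ ℤ, ∀ x, χ x = ((χ' x : ℤ) : ZMod n) := by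
  obtain ⟨r, ι, _, p, hp, e, ⟨E⟩⟩ := AddCommGroup.equiv_free_prod_directSum_zmod H
  have : ∀ i, NeZero (p i ^ e i) := fun i => ⟨pow_ne_zero _ (hp i).ne_zero⟩
  have hF : Finite (DirectSum ι fun i => ZMod (p i ^ e i)) := by
    classical
    exact Finite.of_equiv _ (DirectSum.addEquivProd (fun i => ZMod (p i ^ e i))).symm.toEquiv
  -- transport
  let T (K : Type) [AddCommGroup K] : (H →+ K) ≃ 
      (((Fin r →₀ ℤ) × DirectSum ι fun i => ZMod (p i ^ e i)) →+ K) :=
    { toFun := fun φ => φ.comp E.symm.toAddMonoidHom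
      invFun := fun φ => φ.comp E.toAddMonoidHom
      left_inv := fun φ => by ext x; simp
      right_inv := fun φ => by ext x; simp }
  let TL : (H →+ ℂ) ≃ₗ[ℂ] 
      (((Fin r →₀ ℤ) × DirectSum ι fun i => ZMod (p i ^ e i)) →+ ℂ) :=
    { T ℂ with
      map_add' := fun φ ψ => by ext x; simp [T]
      map_smul' := fun c φ => by ext x; simp [T] }
  rw [Nat.card_congr (T (ZMod n)), LinearEquiv.finrank_eq TL] at h
  obtain ⟨χ', hχ'⟩ := LiftLemma.main n h (T _ χ)
  refine ⟨χ'.comp E.toAddMonoidHom, fun x => ?_⟩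
  have := hχ' (E x)
  simpa [T] using this

end Fermat.Agent.S16.Shimura
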