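import Fermat.Agent.S16.Shimura.Defs
import Fermat.Agent.S16.Shimura.LiftLemma

/-!
# S16 / Shimura, module M5b: lifting homomorphisms `Γ → ℤ/n` to `Γ → ℤ`
-/

set_option autoImplicit false
set_option linter.unusedSectionVars false

open UpperHalfPlane ModularForm CongruenceSubgroup Filter Topology Matrix.SpecialLinearGroup
open scoped MatrixGroups ModularForm Manifold

namespace Fermat.Agent.S16.Shimura

open Fermat.Agent.S21 ModularCurve ModularCurve.Period

/-- complex homomorphisms killing torsion and `T`. -/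
def phiSubmodule (Γ : Subgroup SL(2, ℤ)) : Submodule ℂ (Additive Γ →+ ℂ) where
  carrier := {φ | IsPhi φ}
  zero_mem' := ⟨fun _ _ => rfl, fun _ _ => rfl⟩
  add_mem' := by
    rintro φ φ' ⟨h1, h2⟩ ⟨h1', h2'⟩
    exact ⟨fun γ hγ => by rw [AddMonoidHom.add_apply, h1 γ hγ, h1' γ hγ, add_zero],
      fun γ hγ => by rw [AddMonoidHom.add_apply, h2 γ hγ, h2' γ hγ, add_zero]⟩
  smul_mem' := by
    rintro c φ ⟨h1, h2⟩
    exact ⟨fun γ hγ => by rw [AddMonoidHom.smul_apply, h1 γ hγ, smul_zero],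
      fun γ hγ => by rw [AddMonoidHom.smul_apply, h2 γ hγ, smul_zero]⟩

namespace GroupLift

variable (Γ : Subgroup SL(2, ℤ))

/-- the relations: images of torsion elements and of `T`. -/
def relSet : Set (Additive (Abelianization Γ)) :=
  {x | ∃ γ : Γ, (γ ^ 12 = 1 ∨ (γ : SL(2, ℤ)) = ModularGroup.T) ∧
    x = Additive.ofMul (Abelianization.of γ)}

/-- the universal quotient. -/
abbrev HH : Type := Additive (Abelianization Γ) ⧸ AddSubgroup.closure (relSet Γ)

/-- the projection. -/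
def proj : Additive Γ →+ HH Γ :=
  (QuotientAddGroup.mk' (AddSubgroup.closure (relSet Γ))).comp
    (MonoidHom.toAdditive (Abelianization.of (G := Γ)))

theorem proj_surjective : Function.Surjective (proj Γ) := by
  intro x
  obtain ⟨y, rfl⟩ := QuotientAddGroup.mk'_surjective _ x
  obtain ⟨γ, hγ⟩ := QuotientGroup.mk'_surjective (commutator Γ) y.toMul
  exact ⟨Additive.ofMul γ, by
    show QuotientAddGroup.mk' _ (Additive.ofMul (Abelianization.of γ)) = _
    congr 1⟩

theorem isPhi_comp_proj {K : Type} [AddCommGroup K] (f : HH Γ →+ K) :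
    IsPhi (f.comp (proj Γ)) := by
  have key : ∀ γ : Γ, (γ ^ 12 = 1 ∨ (γ : SL(2, ℤ)) = ModularGroup.T) →
      proj Γ (Additive.ofMul γ) = 0 := by
    intro γ hγ
    show QuotientAddGroup.mk' _ (Additive.ofMul (Abelianization.of γ)) = 0
    rw [QuotientAddGroup.mk'_apply, QuotientAddGroup.eq_zero_iff]
    exact AddSubgroup.subset_closure ⟨γ, hγ, rfl⟩
  exact ⟨fun γ hγ => by rw [AddMonoidHom.comp_apply, key γ (Or.inl hγ), map_zero],
    fun γ hγ => by rw [AddMonoidHom.comp_apply, key γ (Or.inr hγ), map_zero]⟩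

/-- descend an `IsPhi` homomorphism. -/
def desc {K : Type} [AddCommGroup K] (φ : Additive Γ →+ K) (hφ : IsPhi φ) : HH Γ →+ K :=
  QuotientAddGroup.lift _
    (MonoidHom.toAdditiveLeft (Abelianization.lift (AddMonoidHom.toMultiplicativeRight φ)))
    (by
      rw [AddSubgroup.closure_le]
      rintro x ⟨γ, hγ, rfl⟩
      show φ (Additive.ofMul γ) = 0
      rcases hγ with hγ | hγ
      · exact hφ.1 γ hγ
      · exact hφ.2 γ hγ)

theorem desc_comp_proj {K : Type} [AddCommGroup K] (φ : Additive Γ →+ K) (hφ : IsPhi φ) :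
    (desc Γ φ hφ).comp (proj Γ) = φ := by
  ext γ
  rfl

/-- the universal property. -/
def homEquiv (K : Type) [AddCommGroup K] :
    (HH Γ →+ K) ≃ {φ : Additive Γ →+ K // IsPhi φ} where
  toFun f := ⟨f.comp (proj Γ), isPhi_comp_proj Γ f⟩
  invFun φ := desc Γ φ.1 φ.2
  left_inv f := by
    refine DFunLike.ext _ _ fun x => ?_
    obtain ⟨γ, rfl⟩ := proj_surjective Γ x
    exact DFunLike.congr_fun (desc_comp_proj Γ _ (isPhi_comp_proj Γ f)) γ
  right_inv φ := Subtype.ext (desc_comp_proj Γ φ.1 φ.2)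

/-- the linear version. -/
def homLinearEquiv : (HH Γ →+ ℂ) ≃ₗ[ℂ] phiSubmodule Γ :=
  { homEquiv Γ ℂ with
    map_add' := fun _ _ => rfl
    map_smul' := fun _ _ => rfl }

instance : Group.FG SL(2, ℤ) :=
  ⟨⟨{ModularGroup.S, ModularGroup.T}, by
    simpa using SpecialLinearGroup.SL2Z_generators⟩⟩

instance [Γ.FiniteIndex] : AddGroup.FG (HH Γ) := by
  have h1 : Group.FG Γ := inferInstance
  have h2 : AddGroup.FG (Additive Γ) := GroupFG.iff_add_fg.1 h1
  exact AddGroup.fg_of_surjective (proj_surjective Γ)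

end GroupLift

theorem exists_int_lift (Γ : Subgroup SL(2, ℤ)) [Γ.FiniteIndex] (n : ℕ) [NeZero n]
    (hfin : Finite {φ : Additive Γ →+ ZMod n // IsPhi φ})
    (hcard : Nat.card {φ : Additive Γ →+ ZMod n // IsPhi φ}
      ≤ n ^ Module.finrank ℂ (phiSubmodule Γ))
    (ψ : Additive Γ →+ ZMod n) (hψ : IsPhi ψ) :
    ∃ φ : Additive Γ →+ ℤ, IsPhi φ ∧ ∀ γ, ψ γ = ((φ γ : ℤ) : ZMod n) := by
  rw [← Nat.card_congr (GroupLift.homEquiv Γ (ZMod n)),
    ← LinearEquiv.finrank_eq (GroupLift.homLinearEquiv Γ)] at hcard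
  obtain ⟨χ', hχ'⟩ := exists_lift_of_card_le (GroupLift.HH Γ) n hcard (GroupLift.desc Γ ψ hψ)
  refine ⟨χ'.comp (GroupLift.proj Γ), GroupLift.isPhi_comp_proj Γ χ', fun γ => ?_⟩
  have := hχ' (GroupLift.proj Γ γ)
  rw [AddMonoidHom.comp_apply, ← this]
  exact (DFunLike.congr_fun (GroupLift.desc_comp_proj Γ ψ hψ) γ).symm

end Fermat.Agent.S16.Shimura
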