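import Fermat.Agent.S16.Shimura.Defs

/-!
# S16 / Shimura, module M6b: a weight two form on `Γ₀(p)` vanishing at `∞` is a cusp form
(trace to level one, `M₂(SL₂ℤ) = 0`).
-/

set_option autoImplicit false
set_option linter.unusedSectionVars false

open UpperHalfPlane ModularForm CongruenceSubgroup Filter Topology Matrix.SpecialLinearGroup
open scoped MatrixGroups ModularForm Manifold

namespace Fermat.Agent.S16.Shimura

open Fermat.Agent.S21 ModularCurve ModularCurve.Period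

namespace CuspCriterion

/-- every `δ ∉ Γ₀(p)` is of the form `γ S T^j` with `γ ∈ Γ₀(p)`. -/
theorem exists_decomp (p : ℕ) [Fact p.Prime] (δ : SL(2, ℤ)) (hδ : δ ∉ Gamma0 p) :
    ∃ γ ∈ Gamma0 p, ∃ j : ℤ, δ = γ * ModularGroup.S * ModularGroup.T ^ j := by
  rw [Gamma0_mem] at hδ
  -- `c` is invertible mod `p`
  set c : ZMod p := ((δ 1 0 : ℤ) : ZMod p) with hc
  set d : ZMod p := ((δ 1 1 : ℤ) : ZMod p) with hd
  obtain ⟨j, hj⟩ : ∃ j : ℤ, (j : ZMod p) = d * c⁻¹ := ⟨(d * c⁻¹).val, by simp⟩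
  refine ⟨δ * (ModularGroup.T ^ j)⁻¹ * ModularGroup.S⁻¹, ?_, j, by group⟩
  rw [Gamma0_mem, ← zpow_neg]
  have h1 : (δ * ModularGroup.T ^ (-j) * ModularGroup.S⁻¹) 1 0 = -(δ 1 1 - j * δ 1 0) := by
    have hS : ((ModularGroup.S⁻¹ : SL(2, ℤ)) : Matrix (Fin 2) (Fin 2) ℤ) = !![0, 1; -1, 0] := by
      rw [Matrix.SpecialLinearGroup.coe_inv, ModularGroup.coe_S, Matrix.adjugate_fin_two_of]
      simp
    rw [Matrix.SpecialLinearGroup.coe_mul, Matrix.SpecialLinearGroup.coe_mul, hS,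
      ModularGroup.coe_T_zpow]
    simp only [Matrix.mul_apply, Fin.sum_univ_two]
    simp
    ring
  rw [h1]
  push_cast
  rw [← hc, ← hd, hj, mul_assoc, inv_mul_cancel₀ hδ]
  simp

theorem tendsto_zpow_vadd (j : ℤ) :
    Tendsto (fun τ : ℍ => ((j : ℤ) : ℝ) +ᵥ τ) atImInfty atImInfty := by
  rw [atImInfty, tendsto_comap_iff]
  have : (im ∘ fun τ : ℍ => ((j : ℤ) : ℝ) +ᵥ τ) = im := by
    funext τ
    simp
  rw [this]
  exact tendsto_comap

theorem slash_T_zpow_apply (g : ℍ → ℂ) (k j : ℤ) (τ : ℍ) :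
    (g ∣[k] (ModularGroup.T ^ j : SL(2, ℤ))) τ = g (((j : ℤ) : ℝ) +ᵥ τ) := by
  rw [SL_slash_apply, modular_T_zpow_smul]
  have hd : denom ((ModularGroup.T ^ j : SL(2, ℤ)) : GL (Fin 2) ℝ) τ = 1 := by
    rw [ModularGroup.denom_apply, ModularGroup.coe_T_zpow]
    simp
  rw [hd]
  simp

theorem tendsto_slash_T_zpow {g : ℍ → ℂ} {c : ℂ} (hg : Tendsto g atImInfty (𝓝 c)) (k j : ℤ) :
    Tendsto (g ∣[k] (ModularGroup.T ^ j : SL(2, ℤ))) atImInfty (𝓝 c) := by
  have : (g ∣[k] (ModularGroup.T ^ j : SL(2, ℤ))) = g ∘ fun τ : ℍ => ((j : ℤ) : ℝ) +ᵥ τ := by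
    funext τ
    exact slash_T_zpow_apply g k j τ
  rw [this]
  exact hg.comp (tendsto_zpow_vadd j)

theorem S_not_mem (p : ℕ) [Fact p.Prime] : ModularGroup.S ∉ Gamma0 p := by
  rw [Gamma0_mem]
  simp [ModularGroup.S]

end CuspCriterion

open CuspCriterion in
theorem mem_CF_of_valueAtInfty_eq_zero (p : ℕ) [Fact p.Prime] {f : ℍ → ℂ}
    (hf : f ∈ MF (Gamma0 p) 2) (h0 : valueAtInfty f = 0) : f ∈ CF (Gamma0 p) 2 := by
  classical
  have hp : (0 : ℝ) < p := by exact_mod_cast (Fact.out : p.Prime).pos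
  obtain ⟨hmd, hinv, hbd⟩ := mem_MF_iff.mp hf
  have hlim : ∀ δ : SL(2, ℤ), Tendsto (f ∣[(2 : ℤ)] δ) atImInfty
      (𝓝 (valueAtInfty (f ∣[(2 : ℤ)] δ))) := fun δ =>
    tendsto_valueAtInfty hp (slash_periodic p hinv δ) (mdiff_slash hmd 2 δ) (hbd δ)
  have hf0 : Tendsto f atImInfty (𝓝 0) := by
    have := hlim 1
    rwa [SlashAction.slash_one, h0] at this
  set w : ℂ := valueAtInfty (f ∣[(2 : ℤ)] ModularGroup.S) with hw
  -- limits of all translates
  have hin : ∀ δ ∈ Gamma0 p, Tendsto (f ∣[(2 : ℤ)] δ) atImInfty (𝓝 0) := by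
    intro δ hδ
    rw [hinv δ hδ]
    exact hf0
  have hout : ∀ δ : SL(2, ℤ), δ ∉ Gamma0 p → Tendsto (f ∣[(2 : ℤ)] δ) atImInfty (𝓝 w) := by
    intro δ hδ
    obtain ⟨γ, hγ, j, rfl⟩ := exists_decomp p δ hδ
    rw [SlashAction.slash_mul, SlashAction.slash_mul, hinv γ hγ]
    exact tendsto_slash_T_zpow (hlim _) 2 j
  -- the trace vanishes
  have htr : (∑ x, vec (Gamma0 p) 2 f x) ∈ MF ⊤ 2 := by
    have hinv' : ∀ γ : SL(2, ℤ), (∑ x, vec (Gamma0 p) 2 f x) ∣[(2 : ℤ)] γ =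
        ∑ x, vec (Gamma0 p) 2 f x := by
      intro γ
      rw [SlashAction.sum_slash]
      simp_rw [vec_slash hinv]
      exact Equiv.sum_comp (MulAction.toPerm γ⁻¹) (fun x => vec (Gamma0 p) 2 f x)
    refine mem_MF_iff.mpr ⟨?_, fun γ _ => hinv' γ, fun δ => ?_⟩
    · exact Finset.sum_induction _ (fun f : ℍ → ℂ => MDiff f) (fun _ _ ha hb => ha.add hb)
        mdifferentiable_const fun x _ => vec_mdiff hmd 2 x
    · rw [hinv' δ]
      exact Finset.sum_induction _ (fun f : ℍ → ℂ => IsBoundedAtImInfty f)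
        (fun _ _ ha hb => ha.add hb) (by simpa using zero_form_isBoundedAtImInfty)
        fun x _ => vec_isBoundedAtImInfty hf x
  rw [MFtop_two_eq_bot, Submodule.mem_bot] at htr
  -- limits of the `vec`
  have hvec : ∀ x : X (Gamma0 p), Tendsto (vec (Gamma0 p) 2 f x) atImInfty
      (𝓝 (if x = (QuotientGroup.mk 1 : X (Gamma0 p)) then 0 else w)) := by
    intro x
    induction x using QuotientGroup.induction_on with
    | H h =>
      rw [vec_mk hinv]
      split_ifs with hx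
      · refine hin _ ?_
        have : h⁻¹ * 1 ∈ Gamma0 p := QuotientGroup.eq.mp hx
        simpa using this
      · refine hout _ fun hmem => hx ?_
        exact QuotientGroup.eq.mpr (by simpa using hmem)
  have hsum := tendsto_finsetSum (Finset.univ : Finset (X (Gamma0 p))) fun x _ => hvec x
  have hzero : (fun τ => ∑ x, vec (Gamma0 p) 2 f x τ) = fun _ => (0 : ℂ) := by
    funext τ
    have := congrFun htr τ
    simpa using this
  rw [hzero] at hsum
  have hval := tendsto_nhds_unique hsum tendsto_const_nhds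
  -- the sum is `(card X - 1) * w`
  have hw0 : w = 0 := by
    rw [Finset.sum_ite, Finset.sum_const_zero, zero_add, Finset.sum_const, nsmul_eq_mul] at hval
    rcases mul_eq_zero.mp hval with h | h
    · exfalso
      have hcard : (Finset.univ.filter fun x : X (Gamma0 p) =>
          ¬ x = (QuotientGroup.mk 1 : X (Gamma0 p))).card = 0 := by exact_mod_cast h
      rw [Finset.card_eq_zero] at hcard
      have hmem : (QuotientGroup.mk ModularGroup.S : X (Gamma0 p)) ∈
          (Finset.univ.filter fun x : X (Gamma0 p) =>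
            ¬ x = (QuotientGroup.mk 1 : X (Gamma0 p))) := by
        rw [Finset.mem_filter]
        refine ⟨Finset.mem_univ _, fun hx => S_not_mem p ?_⟩
        have : ModularGroup.S⁻¹ * 1 ∈ Gamma0 p := QuotientGroup.eq.mp hx
        have h2 := (Gamma0 p).inv_mem this
        rwa [mul_one, inv_inv] at h2
      rw [hcard] at hmem
      exact absurd hmem (Finset.notMem_empty _)
    · exact h
  refine mem_CF_iff.mpr ⟨hmd, hinv, fun δ => ?_⟩
  by_cases hδ : δ ∈ Gamma0 p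
  · exact hin δ hδ
  · have := hout δ hδ
    rwa [hw0] at this

end Fermat.Agent.S16.Shimura
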