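import Fermat.Agent.S16.Shimura.GroupLift

/-!
# S16 / Shimura, module M6: dimension bookkeeping extracted from the S21 development
-/

set_option autoImplicit false
set_option linter.unusedSectionVars false

open UpperHalfPlane ModularForm CongruenceSubgroup Filter Topology Matrix.SpecialLinearGroup
open scoped MatrixGroups ModularForm Manifold

namespace Fermat.Agent.S16.Shimura

open Fermat.Agent.S21 ModularCurve ModularCurve.Period

/-- (copy the proof of `S21.finrank_hom_le`, all inequalities there are equalities) -/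
theorem finrank_V_le (N : ℕ) [NeZero N] :
    Module.finrank ℂ (Vminus (Gamma0 N)) + Module.finrank ℂ (Vzero (Gamma0 N)) + 1
      ≤ Nat.card (X (Gamma0 N)) + Module.finrank ℂ (Additive (Gamma0 N) →+ ℂ) := by
  classical
  obtain ⟨B⟩ := nonempty_freeBasis N
  obtain ⟨G, hG, hGi⟩ := exists_dual_cusp N B
  have := finite_MF_two N
  have := finite_CF_two N
  have := (group_bound (Gamma0 N) (neg_one_mem_Gamma0 N)).1
  have hle2 := LinearMap.finrank_le_finrank_of_injective (bigPer_injective N)
  rw [Module.finrank_prod] at hle2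
  have hm2 : Nat.card {j : X (Gamma0 N) // B.k j = 2} ≤ Module.finrank ℂ (MF (Gamma0 N) 2) :=
    Count.card_le_finrank B.k B.F UpperHalfPlane.I (B.indep _) 2 _ (fun j hj => hj ▸ B.mem j)
  have hm10' : Nat.card {j : X (Gamma0 N) // 12 - B.k j = 2}
      ≤ Module.finrank ℂ (CF (Gamma0 N) 2) :=
    Count.card_le_finrank (fun j => 12 - B.k j) G UpperHalfPlane.I (hGi _) 2 _
      (fun j hj => by have := hG j; rwa [hj] at this)
  have hV1 := finrank_Vminus_le B
  have hV2 := finrank_Vzero_le B
  obtain ⟨j0, hj0⟩ := Count.exists_weight_zero N B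
  simp only [Nat.card_eq_fintype_card, Fintype.card_subtype, Finset.card_filter] at hm2 hm10' hV1 hV2
  have hcard : Nat.card (X (Gamma0 N)) = ∑ _j : X (Gamma0 N), 1 := by
    rw [Nat.card_eq_fintype_card]; simp
  have hm0 : 1 ≤ ∑ j : X (Gamma0 N), if B.k j = 0 then 1 else 0 := by
    calc 1 = (if B.k j0 = 0 then 1 else 0) := by rw [if_pos hj0]
      _ ≤ _ := Finset.single_le_sum (f := fun j => if B.k j = 0 then 1 else 0)
        (fun _ _ => Nat.zero_le _) (Finset.mem_univ j0)
  have hkey : (∑ j : X (Gamma0 N), if B.k j % 4 = 2 then 1 else 0)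
      + (∑ j : X (Gamma0 N), if (B.k j % 6 = 2 ∨ B.k j % 6 = 4) then 1 else 0)
      + (∑ j : X (Gamma0 N), if B.k j = 0 then 1 else 0)
      = (∑ _j : X (Gamma0 N), 1) + (∑ j : X (Gamma0 N), if B.k j = 2 then 1 else 0)
        + (∑ j : X (Gamma0 N), if 12 - B.k j = 2 then 1 else 0) := by
    rw [← Finset.sum_add_distrib, ← Finset.sum_add_distrib, ← Finset.sum_add_distrib,
      ← Finset.sum_add_distrib]
    apply Finset.sum_congr rfl
    intro j _
    rcases Count.weights N B j with h | h | h | h | h | h <;> rw [h] <;> norm_num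
  omega

namespace DimCount

theorem T_mem_Gamma0 (N : ℕ) : ModularGroup.T ∈ Gamma0 N := by
  rw [Gamma0_mem]
  simp [ModularGroup.T]

/-- evaluation at `T`. -/
noncomputable def evT (N : ℕ) : (Additive (Gamma0 N) →+ ℂ) →ₗ[ℂ] ℂ where
  toFun φ := φ (Additive.ofMul ⟨ModularGroup.T, T_mem_Gamma0 N⟩)
  map_add' _ _ := rfl
  map_smul' _ _ := rfl

theorem ker_evT_le (N : ℕ) : LinearMap.ker (evT N) ≤ phiSubmodule (Gamma0 N) := by
  intro φ hφ
  rw [LinearMap.mem_ker] at hφ
  refine ⟨fun γ hγ => ?_, fun γ hγ => ?_⟩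
  · have h1 : (12 : ℕ) • φ (Additive.ofMul γ) = 0 := by
      rw [← map_nsmul, ← ofMul_pow, hγ, ofMul_one, map_zero]
    simpa using h1
  · have : γ = ⟨ModularGroup.T, T_mem_Gamma0 N⟩ := Subtype.ext hγ
    rw [this]
    exact hφ

end DimCount

/-- `phiSubmodule` is the kernel of evaluation at `T`. -/
theorem finrank_hom_le_phi (N : ℕ) [NeZero N] :
    Module.finrank ℂ (Additive (Gamma0 N) →+ ℂ)
      ≤ Module.finrank ℂ (phiSubmodule (Gamma0 N)) + 1 := by
  have := (group_bound (Gamma0 N) (neg_one_mem_Gamma0 N)).1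
  have h1 := LinearMap.finrank_range_add_finrank_ker (DimCount.evT N)
  have h2 : Module.finrank ℂ (LinearMap.range (DimCount.evT N)) ≤ Module.finrank ℂ ℂ :=
    Submodule.finrank_le _
  rw [Module.finrank_self] at h2
  have h3 := Submodule.finrank_mono (DimCount.ker_evT_le N)
  omega

end Fermat.Agent.S16.Shimura
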