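import Fermat.Agent.S16.Shimura.HeckeCorr

/-!
# S16 / Shimura, module M3: the Shimura character `ψ : Γ₀(p) → ℤ/n`
-/

set_option autoImplicit false
set_option linter.unusedSectionVars false

open UpperHalfPlane ModularForm CongruenceSubgroup Filter Topology Matrix.SpecialLinearGroup
open scoped MatrixGroups ModularForm Manifold

namespace Fermat.Agent.S16.Shimura

open Fermat.Agent.S21 ModularCurve ModularCurve.Period
open P2MW.S_ModularForm_heckeT_slash_eq_self_of_mem_Gamma0.ModularForm.HeckeSlashInvariance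

variable (p : ℕ) [Fact p.Prime]

instance neZero_prime : NeZero p := ⟨(Fact.out : p.Prime).ne_zero⟩

theorem eisensteinNumerator_ne_zero : eisensteinNumerator p ≠ 0 := by
  have hp : 1 < p := (Fact.out : p.Prime).one_lt
  have h1 : 0 < p - 1 := by omega
  have h2 : 0 < Nat.gcd (p - 1) 12 := Nat.gcd_pos_of_pos_left _ h1
  exact (Nat.div_pos (Nat.le_of_dvd h1 (Nat.gcd_dvd_left _ _)) h2).ne'

instance neZero_eisensteinNumerator : NeZero (eisensteinNumerator p) :=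
  ⟨eisensteinNumerator_ne_zero p⟩

namespace Psi

/-- arithmetic core: `m ∣ 12 x` implies `m / gcd(m, 12) ∣ x`. -/
theorem div_gcd_dvd {m x : ℕ} (hm : 0 < m) (h : m ∣ 12 * x) : m / Nat.gcd m 12 ∣ x := by
  have hg : 0 < Nat.gcd m 12 := Nat.gcd_pos_of_pos_left _ hm
  have hcop : Nat.Coprime (m / Nat.gcd m 12) (12 / Nat.gcd m 12) := Nat.coprime_div_gcd_div_gcd hg
  obtain ⟨a, ha⟩ := Nat.gcd_dvd_left m 12
  obtain ⟨b, hb⟩ := Nat.gcd_dvd_right m 12
  have ha' : m / Nat.gcd m 12 = a := Nat.div_eq_of_eq_mul_right hg ha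
  have hb' : 12 / Nat.gcd m 12 = b := Nat.div_eq_of_eq_mul_right hg hb
  rw [ha'] at hcop ⊢
  rw [hb'] at hcop
  apply hcop.dvd_of_dvd_mul_left
  apply Nat.dvd_of_mul_dvd_mul_left hg
  calc Nat.gcd m 12 * a = m := ha.symm
    _ ∣ 12 * x := h
    _ = Nat.gcd m 12 * (b * x) := by
        rw [← mul_assoc, ← hb]

/-- The discrete logarithm modulo `n`. -/
theorem exists_log : ∃ L : (ZMod p)ˣ →* Multiplicative (ZMod (eisensteinNumerator p)),
    Function.Surjective L ∧ ∀ u, u ^ 12 = 1 → L u = 1 := by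
  have hp : 1 < p := (Fact.out : p.Prime).one_lt
  obtain ⟨m, hm⟩ : ∃ m, m = Nat.card (ZMod p)ˣ := ⟨_, rfl⟩
  have hm1 : m = p - 1 := by
    rw [hm, Nat.card_eq_fintype_card, ZMod.card_units]
  have hm0 : 0 < m := by omega
  have : NeZero m := ⟨hm0.ne'⟩
  have hnm : eisensteinNumerator p ∣ m := hm1 ▸ eisensteinNumerator_dvd p
  have e : Multiplicative (ZMod m) ≃* (ZMod p)ˣ := hm ▸ zmodCyclicMulEquiv (inferInstance)
  refine ⟨(AddMonoidHom.toMultiplicative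
    (ZMod.castHom hnm (ZMod (eisensteinNumerator p))).toAddMonoidHom).comp e.symm.toMonoidHom,
    ?_, ?_⟩
  · intro y
    obtain ⟨x, hx⟩ := ZMod.castHom_surjective hnm (Multiplicative.toAdd y)
    exact ⟨e (Multiplicative.ofAdd x), by simp [hx]⟩
  · intro u hu
    set x : ZMod m := Multiplicative.toAdd (e.symm u) with hx
    have h12 : (12 : ℕ) • x = 0 := by
      have : (e.symm u) ^ 12 = 1 := by rw [← map_pow, hu, map_one]
      have h2 := congrArg Multiplicative.toAdd this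
      simpa using h2
    have hdvd : m ∣ 12 * x.val := by
      rw [← ZMod.natCast_eq_zero_iff]
      push_cast
      rw [ZMod.natCast_zmod_val]
      simpa using h12
    have hn : eisensteinNumerator p ∣ x.val := by
      have := div_gcd_dvd hm0 hdvd
      have h3 : eisensteinNumerator p = m / Nat.gcd m 12 := by rw [hm1]; rfl
      rwa [h3]
    show Multiplicative.ofAdd (ZMod.castHom hnm (ZMod (eisensteinNumerator p)) x) = 1
    rw [ZMod.castHom_apply, ← ZMod.natCast_val, (ZMod.natCast_eq_zero_iff _ _).mpr hn]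
    rfl

/-- `γ ↦ d(γ) mod p` as a unit. -/
noncomputable def dU : Gamma0 p →* (ZMod p)ˣ := (Gamma0Map p).toHomUnits

theorem coe_dU (γ : Gamma0 p) :
    ((dU p γ : (ZMod p)ˣ) : ZMod p) = (((γ : SL(2, ℤ)) 1 1 : ℤ) : ZMod p) := rfl

theorem dU_eq_of {γ γ' : Gamma0 p}
    (h : (((γ : SL(2, ℤ)) 1 1 : ℤ) : ZMod p) = (((γ' : SL(2, ℤ)) 1 1 : ℤ) : ZMod p)) :
    dU p γ = dU p γ' := Units.ext h

theorem dU_surjective : Function.Surjective (dU p) := by
  intro u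
  have hcop : IsCoprime (((u : ZMod p).val : ℕ) : ℤ) (p : ℤ) :=
    Nat.isCoprime_iff_coprime.mpr (ZMod.val_coe_unit_coprime u)
  obtain ⟨a, b, hab⟩ := hcop
  have hdet : (!![a, -b; (p : ℤ), (((u : ZMod p).val : ℕ) : ℤ)] :
      Matrix (Fin 2) (Fin 2) ℤ).det = 1 := by
    rw [Matrix.det_fin_two_of]
    linarith
  obtain ⟨g, hg⟩ : ∃ g : SL(2, ℤ), (g : Matrix (Fin 2) (Fin 2) ℤ) =
      !![a, -b; (p : ℤ), (((u : ZMod p).val : ℕ) : ℤ)] := ⟨⟨_, hdet⟩, rfl⟩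
  refine ⟨⟨g, ?_⟩, ?_⟩
  · rw [Gamma0_mem, hg]
    simp
  · apply Units.ext
    rw [coe_dU]
    simp [hg]

theorem cast_one_zero (γ : Gamma0 p) : (((γ : SL(2, ℤ)) 1 0 : ℤ) : ZMod p) = 0 :=
  Gamma0_mem.mp γ.2

section T

variable (ℓ : ℕ) [Fact ℓ.Prime]

/-- the lower right entry of the Hecke representative `α_x`. -/
def del (x : OnePoint (ZMod ℓ)) : ℤ := x.elim 1 (fun _ => (ℓ : ℤ))

theorem heckeRep_val (x : OnePoint (ZMod ℓ)) : ∃ A B : ℤ,
    ((heckeRep ℓ x : GL (Fin 2) ℝ) : Matrix (Fin 2) (Fin 2) ℝ)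
      = !![(A : ℝ), (B : ℝ); 0, ((del ℓ x : ℤ) : ℝ)] := by
  have hℓ : ℓ ≠ 0 := (Fact.out : ℓ.Prime).ne_zero
  induction x using OnePoint.rec with
  | infty =>
    refine ⟨ℓ, 0, ?_⟩
    rw [heckeRep_infty, val_heckeDiagMatrix hℓ]
    simp [del]
  | coe j =>
    refine ⟨1, j.val, ?_⟩
    rw [heckeRep_coe, val_heckeMatrix hℓ]
    simp [del]

variable (hℓ : ¬ ℓ ∣ p)
include hℓ

theorem corrT_entry (γ : Gamma0 p) (x : OnePoint (ZMod ℓ)) :
    ((del ℓ x : ℤ) : ZMod p) * (((γ : SL(2, ℤ)) 1 1 : ℤ) : ZMod p)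
      = (((corrT p ℓ hℓ γ x : SL(2, ℤ)) 1 1 : ℤ) : ZMod p)
        * ((del ℓ (redMatrix ℓ (γ : SL(2, ℤ)) • x) : ℤ) : ZMod p) := by
  have h := corrT_spec p ℓ hℓ γ x
  obtain ⟨A, B, hAB⟩ := heckeRep_val ℓ x
  obtain ⟨A', B', hAB'⟩ := heckeRep_val ℓ (redMatrix ℓ (γ : SL(2, ℤ)) • x)
  have h1 := congrArg (fun g : GL (Fin 2) ℝ => (g : Matrix (Fin 2) (Fin 2) ℝ) 1 1) h
  simp only [Units.val_mul, hAB, hAB', Matrix.mul_apply, Fin.sum_univ_two,
    Matrix.SpecialLinearGroup.mapGL_coe_matrix] at h1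
  simp at h1
  have h2 : del ℓ x * (γ : SL(2, ℤ)) 1 1
      = (corrT p ℓ hℓ γ x : SL(2, ℤ)) 1 0 * B'
        + (corrT p ℓ hℓ γ x : SL(2, ℤ)) 1 1 * del ℓ (redMatrix ℓ (γ : SL(2, ℤ)) • x) := by
    exact_mod_cast h1
  have h3 := congrArg (Int.cast : ℤ → ZMod p) h2
  push_cast at h3
  rw [cast_one_zero, zero_mul, zero_add] at h3
  exact h3

theorem coprime_of_not_dvd : Nat.Coprime ℓ p :=
  (Nat.coprime_primes Fact.out Fact.out).mpr fun h => hℓ (h ▸ dvd_rfl)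

/-- the lower right entry of `α_x` as a unit modulo `p`. -/
noncomputable def delU (x : OnePoint (ZMod ℓ)) : (ZMod p)ˣ :=
  x.elim 1 (fun _ => ZMod.unitOfCoprime ℓ (coprime_of_not_dvd p ℓ hℓ))

theorem coe_delU (x : OnePoint (ZMod ℓ)) :
    ((delU p ℓ hℓ x : (ZMod p)ˣ) : ZMod p) = ((del ℓ x : ℤ) : ZMod p) := by
  induction x using OnePoint.rec with
  | infty => simp [delU, del]
  | coe j => simp [delU, del]

theorem corrT_dU (γ : Gamma0 p) (x : OnePoint (ZMod ℓ)) :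
    delU p ℓ hℓ x * dU p γ
      = dU p (corrT p ℓ hℓ γ x) * delU p ℓ hℓ (redMatrix ℓ (γ : SL(2, ℤ)) • x) := by
  apply Units.ext
  rw [Units.val_mul, Units.val_mul, coe_delU, coe_delU, coe_dU, coe_dU]
  exact corrT_entry p ℓ hℓ γ x

end T

section U

variable (q : ℕ) [NeZero q] (hq : q ∣ p)
include hq

theorem corrU_dU (γ : Gamma0 p) (x : ZMod q) : dU p (corrU p q hq γ x) = dU p γ := by
  apply dU_eq_of
  have hq0 : q ≠ 0 := NeZero.ne q
  have h := corrU_spec p q hq γ x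
  set j' := (affinePerm (γ : SL(2, ℤ)) (cast_eq_zero_of_mem_Gamma0' p q hq γ) x).val with hj'
  have h10 := congrArg (fun g : GL (Fin 2) ℝ => (g : Matrix (Fin 2) (Fin 2) ℝ) 1 0) h
  have h11 := congrArg (fun g : GL (Fin 2) ℝ => (g : Matrix (Fin 2) (Fin 2) ℝ) 1 1) h
  simp only [Units.val_mul, val_heckeMatrix hq0, Matrix.mul_apply, Fin.sum_univ_two,
    Matrix.SpecialLinearGroup.mapGL_coe_matrix] at h10 h11
  simp at h10 h11
  have e10 : (q : ℤ) * (γ : SL(2, ℤ)) 1 0 = (corrU p q hq γ x : SL(2, ℤ)) 1 0 := by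
    exact_mod_cast h10
  have e11 : (q : ℤ) * (γ : SL(2, ℤ)) 1 1
      = (corrU p q hq γ x : SL(2, ℤ)) 1 0 * (j' : ℤ) + (corrU p q hq γ x : SL(2, ℤ)) 1 1 * q := by
    exact_mod_cast h11
  rw [← e10] at e11
  have e : (γ : SL(2, ℤ)) 1 1
      = (γ : SL(2, ℤ)) 1 0 * (j' : ℤ) + (corrU p q hq γ x : SL(2, ℤ)) 1 1 := by
    have hq' : (q : ℤ) ≠ 0 := by exact_mod_cast hq0
    apply mul_left_cancel₀ hq'
    rw [e11]
    ring
  have h3 := congrArg (Int.cast : ℤ → ZMod p) e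
  push_cast at h3
  rw [cast_one_zero, zero_mul, zero_add] at h3
  exact h3.symm

end U

theorem natCast_prime_eq_one : ((p : ℕ) : ZMod (eisensteinNumerator p)) = 1 := by
  have hp : 1 ≤ p := (Fact.out : p.Prime).one_lt.le
  have h : ((p - 1 : ℕ) : ZMod (eisensteinNumerator p)) = 0 :=
    (ZMod.natCast_eq_zero_iff _ _).mpr (eisensteinNumerator_dvd p)
  rw [Nat.cast_sub hp, Nat.cast_one, sub_eq_zero] at h
  exact h

end Psi

open Psi in
/-- `ψ = (reduction mod n) ∘ (discrete logarithm) ∘ (γ ↦ d(γ) mod p)`. -/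
theorem exists_psi : ∃ ψ : Additive (Gamma0 p) →+ ZMod (eisensteinNumerator p),
    IsPhi ψ ∧ (∃ γ : Gamma0 p, ψ (Additive.ofMul γ) = 1) ∧
    (∀ (ℓ : ℕ) [Fact ℓ.Prime] (hℓ : ¬ ℓ ∣ p),
      (opT p ℓ hℓ).op (ZMod (eisensteinNumerator p)) (fun γ => ψ (Additive.ofMul γ))
        = fun γ => (1 + (ℓ : ℤ)) • ψ (Additive.ofMul γ)) ∧
    (∀ (q : ℕ) [NeZero q] (hq : q ∣ p), q ≠ 1 →
      (opU p q hq).op (ZMod (eisensteinNumerator p)) (fun γ => ψ (Additive.ofMul γ))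
        = fun γ => ψ (Additive.ofMul γ)) := by
  obtain ⟨L, hLsurj, hL12⟩ := exists_log p
  -- `Λ` is the additive version of `L`
  set Λ : (ZMod p)ˣ → ZMod (eisensteinNumerator p) := fun u => Multiplicative.toAdd (L u) with hΛ
  have hΛmul : ∀ u v, Λ (u * v) = Λ u + Λ v := fun u v => by simp [hΛ]
  refine ⟨MonoidHom.toAdditiveLeft (L.comp (dU p)), ⟨?_, ?_⟩, ?_, ?_, ?_⟩
  · intro γ hγ
    show Λ (dU p γ) = 0
    have : L (dU p γ) = 1 := hL12 _ (by rw [← map_pow, hγ, map_one])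
    simp [hΛ, this]
  · intro γ hγ
    show Λ (dU p γ) = 0
    have h1 : dU p γ = 1 := by
      apply Units.ext
      rw [coe_dU, hγ]
      simp [ModularGroup.T]
    simp [hΛ, h1]
  · obtain ⟨u, hu⟩ := hLsurj (Multiplicative.ofAdd 1)
    obtain ⟨γ, hγ⟩ := dU_surjective p u
    refine ⟨γ, ?_⟩
    show Λ (dU p γ) = 1
    simp [hΛ, hγ, hu]
  · intro ℓ _ hℓ
    funext γ
    rw [opT_apply]
    show ∑ x : OnePoint (ZMod ℓ), Λ (dU p (corrT p ℓ hℓ γ x)) = (1 + (ℓ : ℤ)) • Λ (dU p γ)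
    have hx : ∀ x : OnePoint (ZMod ℓ), Λ (dU p (corrT p ℓ hℓ γ x))
        = Λ (delU p ℓ hℓ x) + Λ (dU p γ)
          - Λ (delU p ℓ hℓ (redMatrix ℓ (γ : SL(2, ℤ)) • x)) := by
      intro x
      rw [← hΛmul, corrT_dU p ℓ hℓ γ x, hΛmul]
      ring
    simp_rw [hx]
    have hperm : ∑ x : OnePoint (ZMod ℓ), Λ (delU p ℓ hℓ (redMatrix ℓ (γ : SL(2, ℤ)) • x))
        = ∑ x : OnePoint (ZMod ℓ), Λ (delU p ℓ hℓ x) :=
      Equiv.sum_comp (MulAction.toPerm (redMatrix ℓ (γ : SL(2, ℤ))))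
        (fun x => Λ (delU p ℓ hℓ x))
    rw [Finset.sum_sub_distrib, Finset.sum_add_distrib, hperm]
    rw [Finset.sum_const, Finset.card_univ]
    have hcard : Fintype.card (OnePoint (ZMod ℓ)) = ℓ + 1 := by
      rw [show Fintype.card (OnePoint (ZMod ℓ)) = Fintype.card (Option (ZMod ℓ)) from
        Fintype.card_congr (Equiv.refl _), Fintype.card_option, ZMod.card]
    rw [hcard]
    simp only [nsmul_eq_mul, zsmul_eq_mul]
    push_cast
    ring
  · intro q _ hq hq1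
    funext γ
    rw [opU_apply]
    show ∑ x : ZMod q, Λ (dU p (corrU p q hq γ x)) = Λ (dU p γ)
    have hqp : q = p := ((Nat.dvd_prime Fact.out).mp hq).resolve_left hq1
    simp_rw [corrU_dU p q hq γ]
    rw [Finset.sum_const, Finset.card_univ, ZMod.card, nsmul_eq_mul, hqp, natCast_prime_eq_one,
      one_mul]

end Fermat.Agent.S16.Shimura
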