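import Fermat.Agent.S16.Shimura.PeriodHecke
import Fermat.Agent.S16.Shimura.Psi
import Fermat.Agent.S16.Shimura.CountModN
import Fermat.Agent.S16.Shimura.DimCount
import Fermat.Agent.S16.Shimura.CuspCriterion

/-!
# S16 / Shimura: assembly.  `π(t) = 0 → n ∣ ev(t)`.
-/

set_option autoImplicit false
set_option linter.unusedSectionVars false

open UpperHalfPlane ModularForm CongruenceSubgroup Filter Topology Matrix.SpecialLinearGroup
open scoped MatrixGroups ModularForm Manifold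

namespace Fermat.Agent.S16.Shimura

open Fermat.Agent.S21 ModularCurve ModularCurve.Period CuspForm

section linear

variable (N : ℕ) [NeZero N]

theorem per_add (f g : CuspForm (Gamma0 N) 2) : per N (f + g) = per N f + per N g := by
  funext γ
  simp [per, map_add]

theorem iper_add (f g : CuspForm (Gamma0 N) 2) : iper N (f + g) = iper N f + iper N g := by
  funext γ
  simp [iper, map_add]

theorem per_zero : per N 0 = 0 := by
  funext γ
  simp [per]

theorem iper_zero : iper N 0 = 0 := by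
  funext γ
  simp [iper]

theorem per_zsmul (a : ℤ) (f : CuspForm (Gamma0 N) 2) : per N (a • f) = a • per N f := by
  funext γ
  simp [per, map_zsmul]

theorem iper_zsmul (a : ℤ) (f : CuspForm (Gamma0 N) 2) : iper N (a • f) = a • iper N f := by
  funext γ
  simp [iper, map_zsmul]

end linear

variable (p : ℕ) [Fact p.Prime]

theorem exists_natOp (ψ : Gamma0 p → ZMod (eisensteinNumerator p))
    (hT : ∀ (ℓ : ℕ) [Fact ℓ.Prime] (hℓ : ¬ ℓ ∣ p),
      (opT p ℓ hℓ).op (ZMod (eisensteinNumerator p)) ψ = (1 + (ℓ : ℤ)) • ψ)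
    (hU : ∀ (q : ℕ) [NeZero q] (hq : q ∣ p), q ≠ 1 →
      (opU p q hq).op (ZMod (eisensteinNumerator p)) ψ = ψ) (t : HeckeAlg) :
    ∃ Θ : NatOp (Gamma0 p),
      (∀ f, Θ.op ℂ (per p f) = per p ((heckeEvalForms p 2 t).1 f)) ∧
      (∀ f, Θ.op ℂ (iper p f) = iper p ((heckeEvalForms p 2 t).1 f)) ∧
      Θ.op (ZMod (eisensteinNumerator p)) ψ
        = (MvPolynomial.aeval (eisensteinSystem p) t : ℤ) • ψ := by
  induction t using MvPolynomial.induction_on with
  | C a =>
    refine ⟨NatOp.const _ a, fun f => ?_, fun f => ?_, ?_⟩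
    · rw [heckeEvalForms_C]
      have : ((algebraMap ℤ (heckeAlgebra p 2 ∅) a).1 f) = a • f := by
        simp [Algebra.algebraMap_eq_smul_one]
      rw [this, per_zsmul]
      rfl
    · rw [heckeEvalForms_C]
      have : ((algebraMap ℤ (heckeAlgebra p 2 ∅) a).1 f) = a • f := by
        simp [Algebra.algebraMap_eq_smul_one]
      rw [this, iper_zsmul]
      rfl
    · rw [MvPolynomial.aeval_C]
      rfl
  | add s t hs ht =>
    obtain ⟨Θ, h1, h2, h3⟩ := hs
    obtain ⟨Θ', h1', h2', h3'⟩ := ht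
    refine ⟨Θ.add Θ', fun f => ?_, fun f => ?_, ?_⟩
    · rw [map_add]
      change Θ.op ℂ (per p f) + Θ'.op ℂ (per p f) = _
      rw [h1, h1', ← per_add]
      rfl
    · rw [map_add]
      change Θ.op ℂ (iper p f) + Θ'.op ℂ (iper p f) = _
      rw [h2, h2', ← iper_add]
      rfl
    · rw [map_add, add_smul]
      change Θ.op _ ψ + Θ'.op _ ψ = _
      rw [h3, h3']
  | mul_X t ℓ ht =>
    obtain ⟨Θ, h1, h2, h3⟩ := ht
    have : Fact (ℓ : ℕ).Prime := ⟨ℓ.2⟩
    have : NeZero (ℓ : ℕ) := ⟨ℓ.2.ne_zero⟩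
    by_cases hℓ : (ℓ : ℕ) ∣ p
    · refine ⟨Θ.comp (opU p ℓ hℓ), fun f => ?_, fun f => ?_, ?_⟩
      · change Θ.op ℂ ((opU p ℓ hℓ).op ℂ (per p f)) = _
        rw [per_heckeU, h1, map_mul]
        have := heckeEvalForms_heckeGen_of_dvd (N := p) (k := 2) hℓ
        rw [heckeGen] at this
        rw [this]
        rfl
      · change Θ.op ℂ ((opU p ℓ hℓ).op ℂ (iper p f)) = _
        rw [iper_heckeU, h2, map_mul]
        have := heckeEvalForms_heckeGen_of_dvd (N := p) (k := 2) hℓ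
        rw [heckeGen] at this
        rw [this]
        rfl
      · change Θ.op _ ((opU p ℓ hℓ).op _ ψ) = _
        rw [hU ℓ hℓ ℓ.2.one_lt.ne', h3, map_mul, MvPolynomial.aeval_X,
          eisensteinSystem_of_dvd hℓ, mul_one]
    · refine ⟨Θ.comp (opT p ℓ hℓ), fun f => ?_, fun f => ?_, ?_⟩
      · change Θ.op ℂ ((opT p ℓ hℓ).op ℂ (per p f)) = _
        rw [per_heckeT, h1, map_mul]
        have := heckeEvalForms_heckeGen_of_not_dvd (N := p) (k := 2) hℓ
        rw [heckeGen] at this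
        rw [this]
        rfl
      · change Θ.op ℂ ((opT p ℓ hℓ).op ℂ (iper p f)) = _
        rw [iper_heckeT, h2, map_mul]
        have := heckeEvalForms_heckeGen_of_not_dvd (N := p) (k := 2) hℓ
        rw [heckeGen] at this
        rw [this]
        rfl
      · change Θ.op _ ((opT p ℓ hℓ).op _ ψ) = _
        rw [hT ℓ hℓ, map_zsmul, h3, map_mul, MvPolynomial.aeval_X,
          eisensteinSystem_of_not_dvd hℓ, smul_smul, mul_comm]


theorem S_notMem_Gamma0 : ModularGroup.S ∉ Gamma0 p := by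
  intro h
  rw [Gamma0_mem] at h
  have h1 : ((ModularGroup.S : SL(2, ℤ)) 1 0 : ℤ) = 1 := by
    simp [ModularGroup.S]
  rw [h1, Int.cast_one] at h
  have : Fact (1 < p) := ⟨(Fact.out : p.Prime).one_lt⟩
  exact one_ne_zero h

/-- every `ψ : Γ₀(p) → ℤ/n` killing torsion and `T` lifts to `ℤ`. -/
theorem exists_int_lift_Gamma0 (n : ℕ) [NeZero n] (ψ : Additive (Gamma0 p) →+ ZMod n)
    (hψ : IsPhi ψ) :
    ∃ φ : Additive (Gamma0 p) →+ ℤ, IsPhi φ ∧ ∀ γ, ψ γ = ((φ γ : ℤ) : ZMod n) := by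
  obtain ⟨hfin, hcard⟩ := card_isPhi_mul_le (Gamma0 p) (neg_one_mem_Gamma0 p) (T_mem_Gamma0 p)
    (S_notMem_Gamma0 p) n
  refine exists_int_lift (Gamma0 p) n hfin ?_ ψ hψ
  have h1 := finrank_V_le p
  have h2 := finrank_hom_le_phi p
  have hn : 0 < n := Nat.pos_of_ne_zero (NeZero.ne n)
  have h3 : n ^ (Module.finrank ℂ (Vminus (Gamma0 p)) + Module.finrank ℂ (Vzero (Gamma0 p)))
      ≤ n ^ (Module.finrank ℂ (phiSubmodule (Gamma0 p)) + Nat.card (X (Gamma0 p))) :=
    Nat.pow_le_pow_right hn (by omega)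
  rw [pow_add (n) (Module.finrank ℂ (phiSubmodule (Gamma0 p)))] at h3
  exact Nat.le_of_mul_le_mul_right (hcard.trans h3) (pow_pos hn _)

/-- an integral homomorphism killing `T` is a combination of periods of cusp forms. -/
theorem exists_cusp_of_isPhi (φ : Additive (Gamma0 p) →+ ℤ) (hφ : IsPhi φ) :
    ∃ f g : CuspForm (Gamma0 p) 2, (fun γ : Gamma0 p => ((φ (Additive.ofMul γ) : ℤ) : ℂ))
      = per p f + iper p g := by
  set Φ : Additive (Gamma0 p) →+ ℂ := (Int.castAddHom ℂ).comp φ with hΦ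
  obtain ⟨⟨f, g⟩, hfg⟩ := bigPer_surjective p Φ
  rw [bigPer_apply] at hfg
  set T' : Gamma0 p := ⟨ModularGroup.T, T_mem_Gamma0 p⟩ with hT'
  have hΦT : Φ (Additive.ofMul T') = 0 := by
    rw [hΦ, AddMonoidHom.comp_apply, hφ.2 T' rfl]
    simp
  have hgT : charInvolution p ℂ ℂ
      (perHom p (Submodule.inclusion (CF_le_MF (Gamma0 p) 2) g)) (Additive.ofMul T') = 0 := by
    have := invol_perHom_parabolic p g
    rw [mem_parabolicHoms_iff] at this
    refine this T' ?_
    simp [hT', ModularGroup.T, Matrix.trace_fin_two]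
  have hfT : perHom p f (Additive.ofMul T') = 0 := by
    have := congrArg (fun χ : Additive (Gamma0 p) →+ ℂ => χ (Additive.ofMul T')) hfg
    simp only [AddMonoidHom.add_apply, hgT, hΦT, add_zero] at this
    exact this
  rw [perHom_parabolic p f 1 1 T' (Or.inl (by simp [hT']))] at hfT
  simp only [Int.cast_one, one_mul, SlashAction.slash_one] at hfT
  have hfc := mem_CF_of_valueAtInfty_eq_zero p f.2 hfT
  obtain ⟨f₁, hf₁⟩ := mem_CF_iff_exists.mp hfc
  obtain ⟨g₁, hg₁⟩ := mem_CF_iff_exists.mp g.2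
  refine ⟨f₁, g₁, ?_⟩
  have e3 : cuspIncl p f₁ = f := Subtype.ext hf₁
  have e4 : cuspIncl p g₁ = Submodule.inclusion (CF_le_MF (Gamma0 p) 2) g := Subtype.ext hg₁
  funext γ
  have := congrArg (fun χ : Additive (Gamma0 p) →+ ℂ => χ (Additive.ofMul γ)) hfg
  simp only [AddMonoidHom.add_apply, charInvolution_apply, toMul_ofMul] at this
  simp only [Pi.add_apply, per, iper, e3, e4, this, hΦ]
  rfl

/-- **Part A'**: if `t` acts as zero on `S₂(Γ₀(p))` then `n ∣ ev(t)`. -/
theorem eisensteinNumerator_dvd (t : HeckeAlg) (ht : heckeEvalForms p 2 t = 0) :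
    (eisensteinNumerator p : ℤ) ∣ MvPolynomial.aeval (eisensteinSystem p) t := by
  obtain ⟨ψ, hψ, ⟨γ₀, hγ₀⟩, hT, hU⟩ := exists_psi p
  obtain ⟨Θ, h1, h2, h3⟩ := exists_natOp p (fun γ => ψ (Additive.ofMul γ)) hT hU t
  obtain ⟨φ, hφ, hφψ⟩ := exists_int_lift_Gamma0 p _ ψ hψ
  obtain ⟨f, g, hfg⟩ := exists_cusp_of_isPhi p φ hφ
  set φ' : Gamma0 p → ℤ := fun γ => φ (Additive.ofMul γ) with hφ'
  have e1 : Θ.op ℂ ((Int.castAddHom ℂ) ∘ φ') = 0 := by
    have : ((Int.castAddHom ℂ) ∘ φ') = per p f + iper p g := hfg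
    rw [this, map_add, h1, h2, ht]
    change per p 0 + iper p 0 = 0
    rw [per_zero, iper_zero, add_zero]
  rw [Θ.nat] at e1
  have e2 : Θ.op ℤ φ' = 0 := by
    funext γ
    have := congrFun e1 γ
    simpa using this
  have e3 : Θ.op (ZMod (eisensteinNumerator p)) ((Int.castAddHom _) ∘ φ') = 0 := by
    rw [Θ.nat, e2]
    funext γ
    simp
  have e4 : ((Int.castAddHom (ZMod (eisensteinNumerator p))) ∘ φ')
      = fun γ => ψ (Additive.ofMul γ) := by
    funext γ
    exact (hφψ _).symm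
  rw [e4, h3] at e3
  have e5 := congrFun e3 γ₀
  simp only [Pi.smul_apply, hγ₀, Pi.zero_apply, zsmul_eq_mul, mul_one] at e5
  exact (ZMod.intCast_zmod_eq_zero_iff_dvd _ _).mp e5

end Fermat.Agent.S16.Shimura
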