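import Fermat.Agent.S21
import Fermat.Prelude.Def_CuspForm_HeckeEvalForms
import Fermat.Prelude.Def_CuspForm_HeckeLocal
import Fermat.Prelude.Def_ModularCurve_ModularUnit
import Fermat.Prelude.Sol.S_ModularForm_heckeT_slash_eq_self_of_mem_Gamma0

/-!
# S16, theta-free Part A (`n ∣ m`) via the Shimura subgroup: shared definitions

Blueprint: board post 228 (helper39).  We prove
`heckeEvalForms p 2 t = 0 → (eisensteinNumerator p : ℤ) ∣ aeval (eisensteinSystem p) t`.
-/

set_option autoImplicit false

open UpperHalfPlane ModularForm CongruenceSubgroup Filter Topology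
open scoped MatrixGroups ModularForm Manifold

namespace Fermat.Agent.S16.Shimura

open Fermat.Agent.S21 ModularCurve ModularCurve.Period
open P2MW.S_ModularForm_heckeT_slash_eq_self_of_mem_Gamma0.ModularForm.HeckeSlashInvariance

/-- A natural additive operator on functions `G → A`, for all abelian groups `A` at once. -/
structure NatOp (G : Type) where
  /-- the operator -/
  op : ∀ (A : Type) [AddCommGroup A], (G → A) →+ (G → A)
  /-- naturality in the coefficient group -/
  nat : ∀ (A B : Type) [AddCommGroup A] [AddCommGroup B] (g : A →+ B) (φ : G → A),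
    op B (g ∘ φ) = g ∘ op A φ

/-- the period function of a cusp form of weight two, as a plain function on `Γ₀(N)`. -/
noncomputable def per (N : ℕ) [NeZero N] (f : CuspForm (Gamma0 N) 2) : Gamma0 N → ℂ :=
  fun γ => perHom N (cuspIncl N f) (Additive.ofMul γ)

/-- the period function twisted by the involution `γ ↦ JγJ`. -/
noncomputable def iper (N : ℕ) [NeZero N] (f : CuspForm (Gamma0 N) 2) : Gamma0 N → ℂ :=
  fun γ => perHom N (cuspIncl N f) (Additive.ofMul (jConjGamma0 N γ))

/-- Homomorphisms `Γ → K` killing all `γ` with `γ ^ 12 = 1` and killing `T`. -/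
def IsPhi {Γ : Subgroup SL(2, ℤ)} {K : Type} [AddCommGroup K] (φ : Additive Γ →+ K) : Prop :=
  (∀ γ : Γ, γ ^ 12 = 1 → φ (Additive.ofMul γ) = 0) ∧
    ∀ γ : Γ, (γ : SL(2, ℤ)) = ModularGroup.T → φ (Additive.ofMul γ) = 0

end Fermat.Agent.S16.Shimura
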