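import Fermat.Agent.S16.Shimura.HeckeCorr

/-!
# S16 / Shimura, module M2: Hecke equivariance of the period maps
-/

set_option autoImplicit false
set_option linter.unusedSectionVars false

open UpperHalfPlane ModularForm CongruenceSubgroup Filter Topology Matrix.SpecialLinearGroup
open scoped MatrixGroups ModularForm Manifold

namespace Fermat.Agent.S16.Shimura

open Fermat.Agent.S21 ModularCurve ModularCurve.Period
open P2MW.S_ModularForm_heckeT_slash_eq_self_of_mem_Gamma0.ModularForm.HeckeSlashInvariance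

namespace PeriodHecke

/-- chain rule: `F ∘ α` is a primitive of `f ∣[2] α` for `α ∈ GL₂⁺(ℝ)` -/
theorem isPrim_comp_GL {F f : ℍ → ℂ} (hF : IsPrim F f) (α : GL (Fin 2) ℝ) (hα : 0 < α.val.det) :
    IsPrim (fun τ => F (α • τ)) (f ∣[(2 : ℤ)] α) := by
  intro τ
  have h1 := (hasStrictDerivAt_smul hα τ).hasDerivAt
  have h2 : HasDerivAt (F ∘ ofComplex) (f (α • τ)) (↑(α • ofComplex (τ : ℂ))) := by
    rw [ofComplex_apply]
    exact hF (α • τ)
  have h3 := h2.comp (τ : ℂ) h1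
  have h4 : ((fun τ => F (α • τ)) ∘ ofComplex) =
      ((F ∘ ofComplex) ∘ fun z => (↑(α • ofComplex z) : ℂ)) := by
    funext z
    simp only [Function.comp_apply, ofComplex_apply]
  rw [h4]
  refine h3.congr_deriv ?_
  have hα' : 0 < α.det.val := hα
  rw [ModularForm.slash_apply, UpperHalfPlane.σ, if_pos hα', abs_of_pos hα']
  simp only [ContinuousAlgEquiv.refl_apply]
  rw [zpow_neg]
  have : α.det.val = α.val.det := rfl
  rw [this]
  norm_num
  ring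

theorem isPrim_zero : IsPrim 0 0 := by
  intro τ
  have : ((0 : ℍ → ℂ) ∘ ofComplex) = fun _ => (0 : ℂ) := rfl
  rw [this]
  exact hasDerivAt_const _ _

theorem isPrim_sum {ι : Type} (s : Finset ι) (F f : ι → ℍ → ℂ) (h : ∀ x, IsPrim (F x) (f x)) :
    IsPrim (∑ x ∈ s, F x) (∑ x ∈ s, f x) := by
  classical
  induction s using Finset.induction_on with
  | empty => simpa using isPrim_zero
  | insert a s ha ih =>
    rw [Finset.sum_insert ha, Finset.sum_insert ha]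
    exact (h a).add ih

variable (N : ℕ) [NeZero N]

/-- the general Hecke-equivariance statement for period homomorphisms. -/
theorem per_general {ι : Type} [Fintype ι] (α : ι → GL (Fin 2) ℝ) (hα : ∀ x, 0 < (α x).val.det)
    (f g : MF (Gamma0 N) 2) (hg : (g : ℍ → ℂ) = ∑ x, (f : ℍ → ℂ) ∣[(2 : ℤ)] α x)
    (γ : Gamma0 N) (γ' : ι → Gamma0 N) (ν σ : Equiv.Perm ι)
    (h : ∀ x, α (ν x) * mapGL ℝ (γ : SL(2, ℤ)) = mapGL ℝ (γ' x : SL(2, ℤ)) * α (σ x)) :
    ∑ x, perHom N f (Additive.ofMul (γ' x)) = perHom N g (Additive.ofMul γ) := by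
  have hF := chosenPrim_isPrim N f
  set F := chosenPrim N f with hFdef
  have hG : IsPrim (∑ x, fun τ => F (α x • τ)) (g : ℍ → ℂ) := by
    rw [hg]
    exact isPrim_sum Finset.univ _ _ fun x => isPrim_comp_GL hF (α x) (hα x)
  rw [perHom_apply N g hG γ UpperHalfPlane.I]
  simp only [Finset.sum_apply]
  rw [← Equiv.sum_comp ν (fun x => F (α x • ((γ : SL(2, ℤ)) • UpperHalfPlane.I))),
    ← Equiv.sum_comp σ (fun x => F (α x • UpperHalfPlane.I)), ← Finset.sum_sub_distrib]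
  refine Finset.sum_congr rfl fun x _ => ?_
  rw [perHom_apply N f hF (γ' x) (α (σ x) • UpperHalfPlane.I)]
  congr 2
  have h1 : (γ : SL(2, ℤ)) • UpperHalfPlane.I = mapGL ℝ (γ : SL(2, ℤ)) • UpperHalfPlane.I := rfl
  have h2 : ((γ' x : Gamma0 N) : SL(2, ℤ)) • (α (σ x) • UpperHalfPlane.I)
      = mapGL ℝ ((γ' x : Gamma0 N) : SL(2, ℤ)) • (α (σ x) • UpperHalfPlane.I) := rfl
  rw [h1, h2, ← mul_smul, ← mul_smul, h x]

/-- the matrix `J = diag(-1, 1)`. -/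
noncomputable def Jmat : GL (Fin 2) ℝ :=
  Matrix.GeneralLinearGroup.mkOfDetNeZero !![-1, 0; 0, 1] (by simp)

theorem val_Jmat : (Jmat : Matrix (Fin 2) (Fin 2) ℝ) = !![-1, 0; 0, 1] := rfl

theorem Jmat_mul_Jmat : Jmat * Jmat = 1 := by
  ext i j
  rw [Matrix.GeneralLinearGroup.coe_mul, val_Jmat]
  fin_cases i <;> fin_cases j <;> simp

theorem Jmat_conj_mapGL (γ : SL(2, ℤ)) : Jmat * mapGL ℝ γ * Jmat = mapGL ℝ (jConjSL γ) := by
  ext i j
  rw [Matrix.GeneralLinearGroup.coe_mul, Matrix.GeneralLinearGroup.coe_mul, val_Jmat]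
  fin_cases i <;> fin_cases j <;>
    simp [Matrix.mul_apply, Fin.sum_univ_two, Matrix.vecMul, dotProduct]

/-- the general Hecke-equivariance statement for the twisted period homomorphisms. -/
theorem iper_general {ι : Type} [Fintype ι] (α : ι → GL (Fin 2) ℝ) (hα : ∀ x, 0 < (α x).val.det)
    (f g : MF (Gamma0 N) 2) (hg : (g : ℍ → ℂ) = ∑ x, (f : ℍ → ℂ) ∣[(2 : ℤ)] α x)
    (γ : Gamma0 N) (γ' : ι → Gamma0 N) (ν σ : Equiv.Perm ι)
    (h : ∀ x, α x * mapGL ℝ (γ : SL(2, ℤ)) = mapGL ℝ (γ' x : SL(2, ℤ)) * α (σ x))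
    (hJ : ∀ x, ∃ t : Gamma0 N, Jmat * α x * Jmat = mapGL ℝ (t : SL(2, ℤ)) * α (ν x)) :
    ∑ x, perHom N f (Additive.ofMul (jConjGamma0 N (γ' x)))
      = perHom N g (Additive.ofMul (jConjGamma0 N γ)) := by
  choose t ht using hJ
  have key : ∀ x, α (ν x) * mapGL ℝ ((jConjGamma0 N γ : Gamma0 N) : SL(2, ℤ))
      = mapGL ℝ (((t x)⁻¹ * jConjGamma0 N (γ' x) * t (σ x) : Gamma0 N) : SL(2, ℤ))
        * α (ν (σ x)) := by
    intro x
    have e1 : mapGL ℝ ((t x : Gamma0 N) : SL(2, ℤ)) * α (ν x)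
        * mapGL ℝ ((jConjGamma0 N γ : Gamma0 N) : SL(2, ℤ))
        = mapGL ℝ ((jConjGamma0 N (γ' x) : Gamma0 N) : SL(2, ℤ))
          * (mapGL ℝ ((t (σ x) : Gamma0 N) : SL(2, ℤ)) * α (ν (σ x))) := by
      rw [← ht x, ← ht (σ x), jConjGamma0_coe, jConjGamma0_coe, ← Jmat_conj_mapGL,
        ← Jmat_conj_mapGL]
      calc Jmat * α x * Jmat * (Jmat * mapGL ℝ (γ : SL(2, ℤ)) * Jmat)
          = Jmat * α x * (Jmat * Jmat) * mapGL ℝ (γ : SL(2, ℤ)) * Jmat := by group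
        _ = Jmat * (α x * mapGL ℝ (γ : SL(2, ℤ))) * Jmat := by
            rw [Jmat_mul_Jmat]; group
        _ = Jmat * (mapGL ℝ (γ' x : SL(2, ℤ)) * α (σ x)) * Jmat := by rw [h x]
        _ = Jmat * mapGL ℝ (γ' x : SL(2, ℤ)) * (Jmat * Jmat) * α (σ x) * Jmat := by
            rw [Jmat_mul_Jmat]; group
        _ = Jmat * mapGL ℝ (γ' x : SL(2, ℤ)) * Jmat * (Jmat * α (σ x) * Jmat) := by group
    rw [Subgroup.coe_mul, Subgroup.coe_mul, Subgroup.coe_inv, map_mul, map_mul, map_inv]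
    calc α (ν x) * mapGL ℝ ((jConjGamma0 N γ : Gamma0 N) : SL(2, ℤ))
        = (mapGL ℝ ((t x : Gamma0 N) : SL(2, ℤ)))⁻¹ * (mapGL ℝ ((t x : Gamma0 N) : SL(2, ℤ))
          * α (ν x) * mapGL ℝ ((jConjGamma0 N γ : Gamma0 N) : SL(2, ℤ))) := by group
      _ = _ := by rw [e1]; group
  have := per_general N α hα f g hg (jConjGamma0 N γ)
    (fun x => (t x)⁻¹ * jConjGamma0 N (γ' x) * t (σ x)) ν (σ.trans ν) key
  rw [← this]
  simp only [ofMul_mul, ofMul_inv, map_add, map_neg, Finset.sum_add_distrib, Finset.sum_neg_distrib]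
  rw [Equiv.sum_comp σ (fun x => perHom N f (Additive.ofMul (t x)))]
  ring

theorem Jmat_conj_heckeMatrix (q : ℕ) [NeZero q] (x : ZMod q) :
    ∃ t : Gamma0 N, Jmat * heckeMatrix q x.val * Jmat
      = mapGL ℝ (t : SL(2, ℤ)) * heckeMatrix q (-x).val := by
  obtain ⟨e, he⟩ : (q : ℤ) ∣ (x.val : ℤ) + ((-x).val : ℤ) := by
    rw [← ZMod.intCast_zmod_eq_zero_iff_dvd]
    push_cast
    simp
  refine ⟨⟨ModularGroup.T ^ (-e), Subgroup.zpow_mem _ (T_mem_Gamma0 N) _⟩, ?_⟩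
  have he' : ((x.val : ℝ) + ((-x).val : ℝ)) = q * e := by exact_mod_cast he
  have hT : ((mapGL ℝ (ModularGroup.T ^ (-e)) : GL (Fin 2) ℝ) : Matrix (Fin 2) (Fin 2) ℝ)
      = !![1, -(e : ℝ); 0, 1] := by
    ext i j
    rw [mapGL_apply, ModularGroup.coe_T_zpow]
    fin_cases i <;> fin_cases j <;> simp
  ext i j
  rw [Matrix.GeneralLinearGroup.coe_mul, Matrix.GeneralLinearGroup.coe_mul,
    Matrix.GeneralLinearGroup.coe_mul, val_Jmat, val_heckeMatrix (NeZero.ne q),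
    val_heckeMatrix (NeZero.ne q), hT]
  fin_cases i <;> fin_cases j <;> simp [Matrix.mul_apply, Fin.sum_univ_two]
  simp only [ZMod.natCast_val] at he'
  linarith

theorem Jmat_conj_heckeDiagMatrix (q : ℕ) [NeZero q] :
    ∃ t : Gamma0 N, Jmat * heckeDiagMatrix q * Jmat
      = mapGL ℝ (t : SL(2, ℤ)) * heckeDiagMatrix q := by
  refine ⟨1, ?_⟩
  ext i j
  rw [Matrix.GeneralLinearGroup.coe_mul, Matrix.GeneralLinearGroup.coe_mul,
    Matrix.GeneralLinearGroup.coe_mul, val_Jmat, val_heckeDiagMatrix (NeZero.ne q)]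
  fin_cases i <;> fin_cases j <;> simp [Matrix.mul_apply, Fin.sum_univ_two]

theorem det_heckeRep_pos (ℓ : ℕ) (x : OnePoint (ZMod ℓ)) : 0 < (heckeRep ℓ x).val.det := by
  induction x using OnePoint.rec with
  | infty => exact det_heckeDiagMatrix_pos ℓ
  | coe j => exact det_heckeMatrix_pos ℓ j.val

/-- negation on `ℙ¹(𝔽_ℓ)` -/
def negPerm (ℓ : ℕ) : Equiv.Perm (OnePoint (ZMod ℓ)) :=
  Equiv.optionCongr (Equiv.neg (ZMod ℓ))

theorem Jmat_conj_heckeRep (ℓ : ℕ) [NeZero ℓ] (x : OnePoint (ZMod ℓ)) :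
    ∃ t : Gamma0 N, Jmat * heckeRep ℓ x * Jmat
      = mapGL ℝ (t : SL(2, ℤ)) * heckeRep ℓ (negPerm ℓ x) := by
  induction x using OnePoint.rec with
  | infty => exact Jmat_conj_heckeDiagMatrix N ℓ
  | coe j => exact Jmat_conj_heckeMatrix N ℓ j

end PeriodHecke

variable (N : ℕ) [NeZero N]

theorem per_heckeT (ℓ : ℕ) [Fact ℓ.Prime] (hℓN : ¬ ℓ ∣ N) (f : CuspForm (Gamma0 N) 2) :
    (opT N ℓ hℓN).op ℂ (per N f) = per N (CuspForm.heckeTLin 2 Fact.out hℓN f) := by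
  funext γ
  rw [opT_apply]
  exact PeriodHecke.per_general N (heckeRep ℓ) (PeriodHecke.det_heckeRep_pos ℓ) (cuspIncl N f)
    (cuspIncl N (CuspForm.heckeTLin 2 Fact.out hℓN f)) (heckeT_eq_sum_onePoint 2 f) γ
    (corrT N ℓ hℓN γ) (Equiv.refl _) (MulAction.toPerm (redMatrix ℓ (γ : SL(2, ℤ))))
    (corrT_spec N ℓ hℓN γ)

theorem iper_heckeT (ℓ : ℕ) [Fact ℓ.Prime] (hℓN : ¬ ℓ ∣ N) (f : CuspForm (Gamma0 N) 2) :
    (opT N ℓ hℓN).op ℂ (iper N f) = iper N (CuspForm.heckeTLin 2 Fact.out hℓN f) := by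
  funext γ
  rw [opT_apply]
  exact PeriodHecke.iper_general N (heckeRep ℓ) (PeriodHecke.det_heckeRep_pos ℓ) (cuspIncl N f)
    (cuspIncl N (CuspForm.heckeTLin 2 Fact.out hℓN f)) (heckeT_eq_sum_onePoint 2 f) γ
    (corrT N ℓ hℓN γ) (PeriodHecke.negPerm ℓ) (MulAction.toPerm (redMatrix ℓ (γ : SL(2, ℤ))))
    (corrT_spec N ℓ hℓN γ) (PeriodHecke.Jmat_conj_heckeRep N ℓ)

theorem per_heckeU (q : ℕ) [NeZero q] (hqN : q ∣ N) (f : CuspForm (Gamma0 N) 2) :
    (opU N q hqN).op ℂ (per N f) = per N (CuspForm.heckeULin 2 hqN f) := by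
  funext γ
  rw [opU_apply]
  exact PeriodHecke.per_general N (fun x : ZMod q => heckeMatrix q x.val)
    (fun x => det_heckeMatrix_pos q x.val) (cuspIncl N f)
    (cuspIncl N (CuspForm.heckeULin 2 hqN f)) (heckeU_eq_sum_zmod 2 f) γ
    (corrU N q hqN γ) (Equiv.refl _)
    (affinePerm (γ : SL(2, ℤ)) (cast_eq_zero_of_mem_Gamma0' N q hqN γ))
    (corrU_spec N q hqN γ)

theorem iper_heckeU (q : ℕ) [NeZero q] (hqN : q ∣ N) (f : CuspForm (Gamma0 N) 2) :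
    (opU N q hqN).op ℂ (iper N f) = iper N (CuspForm.heckeULin 2 hqN f) := by
  funext γ
  rw [opU_apply]
  exact PeriodHecke.iper_general N (fun x : ZMod q => heckeMatrix q x.val)
    (fun x => det_heckeMatrix_pos q x.val) (cuspIncl N f)
    (cuspIncl N (CuspForm.heckeULin 2 hqN f)) (heckeU_eq_sum_zmod 2 f) γ
    (corrU N q hqN γ) (Equiv.neg (ZMod q))
    (affinePerm (γ : SL(2, ℤ)) (cast_eq_zero_of_mem_Gamma0' N q hqN γ))
    (corrU_spec N q hqN γ) (PeriodHecke.Jmat_conj_heckeMatrix N q)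

end Fermat.Agent.S16.Shimura
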